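import Fermat.Agent.TWLocal.Inst

set_option autoImplicit false
set_option maxHeartbeats 400000
set_option linter.style.haveILetI false
set_option linter.unusedSectionVars false

/-! The local duality axioms for `ℚ_q`, continued. -/

namespace Fermat.Agent.TWLocal

open Fermat.Agent.CFT Fermat.Agent.CFTLocal Finset

noncomputable section

variable {q : ℕ} [hq : Fact q.Prime] {p : ℕ} [hp : Fact p.Prime] {ζ : Om q}
  (hζ : IsPrimitiveRoot ζ p)

theorem smul_nsmul' {G A : Type*} [Group G] [AddCommGroup A] [DistribMulAction G A] (g : G) (n : ℕ)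
    (a : A) : g • n • a = n • g • a := smul_comm g n a

theorem cup_LC2 {D A : Type*} [Group D] [TopologicalSpace D] [IsTopologicalGroup D]
    [CompactSpace D] [AddCommGroup A] {χ : D → ZMod p} (hlc : LC1 χ) (a : A) :
    LC2 (cup p (lft χ) a) := by
  obtain ⟨N, h1, h2⟩ := hlc
  obtain ⟨N', h1', h2', h3'⟩ := exists_normal_le h1
  refine ⟨N', h2', fun g h n hn n' hn' => ?_⟩
  have e1 : g * n * (h * n') = (g * h) * ((h⁻¹ * n * h) * n') := by group
  have e2 : χ (g * n) = χ g := h2 g n (h3' hn)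
  have e3 : χ (h * n') = χ h := h2 h n' (h3' hn')
  have e4 : χ (g * n * (h * n')) = χ (g * h) := by
    rw [e1]
    exact h2 (g * h) _ (h3' (N'.mul_mem (by simpa using h1'.conj_mem n hn h⁻¹) hn'))
  show ((lft χ (g * n) + lft χ (h * n') - lft χ (g * n * (h * n'))) / (p : ℤ)) • a
    = ((lft χ g + lft χ h - lft χ (g * h)) / (p : ℤ)) • a
  rw [lft, lft, lft, lft, lft, lft, e2, e3, e4]

theorem p_cup_B2l {D A : Type*} [Group D] [TopologicalSpace D] [AddCommGroup A]
    [DistribMulAction D A] {χ : D → ZMod p} (hχ : ∀ g h, χ (g * h) = χ g + χ h)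
    (hlc : LC1 χ) (a : A) (ha : ∀ g : D, g • a = a) : p • cup p (lft χ) a ∈ B2l D A := by
  refine ⟨fun g => lft χ g • a, hlc.comp (fun t => ((t.val : ℕ) : ℤ) • a), fun g h => ?_⟩
  obtain ⟨c, hc⟩ := lft_dvd χ hχ g h
  have hn : (p : ℤ) ≠ 0 := by exact_mod_cast hp.out.ne_zero
  show p • (((lft χ g + lft χ h - lft χ (g * h)) / (p : ℤ)) • a) =
    lft χ g • a + g • lft χ h • a - lft χ (g * h) • a
  rw [smul_comm g, ha, hc, Int.mul_ediv_cancel_left _ hn, ← add_smul, ← sub_smul, hc,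
    ← natCast_zsmul, smul_smul]

theorem fin_U {U : Subgroup (LG q)} (hU : IsOpen (U : Set (LG q)))
    (hUz : ∀ g ∈ U, ∀ t, g • zq hζ t = zq hζ t) : Finite (HomU p U) := by
  classical
  have hfin : Finite (fix (LM q) U ⧸ (mulN (fix (LM q) U) p).range) := by
    have : (mulN (fix (LM q) U) p).range.FiniteIndex := ⟨(L1 p U hU).1.coker⟩
    exact AddSubgroup.finite_quotient_of_finiteIndex
  have h1 : ∀ χ : HomU p U, ∃ α : LM q, ∀ g : U, zq hζ (χ.1 g) = g • α - α := by
    intro χ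
    apply h90_U hU
    · intro g h
      show zq hζ (χ.1 (g * h)) = zq hζ (χ.1 g) + (g : LG q) • zq hζ (χ.1 h)
      rw [hUz g g.2, ← map_add, χ.2.1]
    · exact χ.2.2.comp _
  choose α hα using h1
  have h2 : ∀ χ : HomU p U, p • α χ ∈ fix (LM q) U := by
    intro χ g hg
    have h3 : (g : LG q) • α χ - α χ = zq hζ (χ.1 ⟨g, hg⟩) := (hα χ ⟨g, hg⟩).symm
    rw [← sub_eq_zero, smul_nsmul', ← nsmul_sub, h3, p_zh]
  refine Finite.of_injective (fun χ : HomU p U =>
    (QuotientAddGroup.mk ⟨p • α χ, h2 χ⟩ : fix (LM q) U ⧸ (mulN (fix (LM q) U) p).range)) ?_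
  intro χ χ' h
  have h3 := QuotientAddGroup.eq.mp h
  obtain ⟨b, hb⟩ := h3
  have h4 : p • (b : LM q) = - (p • α χ) + p • α χ' := congrArg Subtype.val hb
  have h5 : p • (α χ' - α χ - (b : LM q)) = 0 := by
    rw [nsmul_sub, nsmul_sub, h4]; abel
  obtain ⟨t, ht⟩ := zq_tors hζ _ h5
  apply Subtype.ext
  funext g
  apply zq_inj hζ
  rw [hα, hα]
  have h6 : (g : LG q) • zq hζ t = zq hζ t := hUz g g.2 t
  rw [ht, smul_sub, smul_sub, b.2 g g.2] at h6
  show (g : LG q) • α χ - α χ = (g : LG q) • α χ' - α χ'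
  have h7 : (g : LG q) • α χ' - α χ' = ((g : LG q) • α χ - α χ) +
    (((g : LG q) • α χ' - (g : LG q) • α χ - (b : LM q)) - (α χ' - α χ - (b : LM q))) := by abel
  rw [h7, h6, sub_self, add_zero]

theorem locAx {U : Subgroup (LG q)} (hU : IsOpen (U : Set (LG q)))
    (hUz : ∀ g ∈ U, ∀ t, g • zq hζ t = zq hζ t) : LocAx p U (zq hζ) where
  disc := disc_LM.sub U
  div := div_LM
  inj := zq_inj hζ
  tors := zq_tors hζ
  fixz := fun g t => hUz g g.2 t
  h90 := fun c hc hlc => h90_U hU c hc hlc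
  inv := inv_U hU p
  norm := fun χ h1 h2 h3 => norm_U hU p χ h1 h2 h3
  fin := fin_U hζ hU hUz

theorem exists_w : ∃ w ∈ Z2l (LG q) (LM q), p • w ∈ B2l (LG q) (LM q) ∧
    w ∉ B2l (LG q) (LM q) := by
  have hm : 0 < p := hp.out.pos
  have hχ : ∀ g h : LG q, dg p (g * h) = dg p g + dg p h := dg_mul hm
  have hlc : LC1 (fun g : LG q => dg p g) := by
    refine ⟨Km q hm, Km_open hm, fun g n hn => ?_⟩
    beta_reduce
    rw [hχ, mem_Km.mp hn, add_zero]
  have htop : IsOpen ((⊤ : Subgroup (LG q)) : Set (LG q)) := isOpen_univ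
  obtain ⟨s, hs⟩ := dg_surj (q := q) hm
  obtain ⟨a, ha, hna⟩ := norm_U htop p (fun g => dg p (g : LG q)) (fun g h => hχ g h)
    (res_LC1 _ hlc) (fun h => by
      have := congrFun h ⟨s, trivial⟩
      beta_reduce at this
      rw [hs] at this
      exact one_ne_zero this)
  have ha' : ∀ g : LG q, g • a = a := fun g => ha ⟨g, trivial⟩
  exact ⟨cup p (lft (dg p)) a, ⟨cup_mem_Z2 hm (lft_dvd _ hχ) (fun g _ => ha' g),
    cup_LC2 hlc a⟩, p_cup_B2l hχ hlc a ha', fun h => hna (res_B2l ⊤ h)⟩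

theorem globAx : GlobAx p (LG q) (zq hζ) where
  disc := disc_LM
  inj := zq_inj hζ
  tors := zq_tors hζ
  loc := fun _ hU hUz => locAx hζ hU hUz
  ex := exists_w

/-- the second cohomology group -/
abbrev H2l (G : Type*) [Group G] [TopologicalSpace G] (M : Type*) [AddCommGroup M]
    [DistribMulAction G M] : Type _ := Z2l G M ⧸ (B2l G M).addSubgroupOf (Z2l G M)

/-- equivariant homomorphisms -/
def HomEq (G M C : Type*) [Group G] [AddCommGroup M] [DistribMulAction G M] [AddCommGroup C]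
    [DistribMulAction G C] : AddSubgroup (M →+ C) where
  carrier := {φ | ∀ (g : G) (r : M), φ (g • r) = g • φ r}
  zero_mem' := fun g r => (smul_zero g).symm
  add_mem' := fun {a b} ha hb g r => by
    show a (g • r) + b (g • r) = g • (a r + b r)
    rw [ha, hb, smul_add]
  neg_mem' := fun {a} ha g r => by
    show - a (g • r) = g • (- a r)
    rw [ha, smul_neg]

include hζ in
theorem finite_hom_LM {M : Type*} [AddCommGroup M] [Finite M] (hpM : ∀ m : M, p • m = 0) :
    Finite (M →+ LM q) := by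
  classical
  haveI : Finite (M →+ ZMod p) := DFunLike.finite _
  refine Finite.of_surjective (fun f : M →+ ZMod p => (zq hζ).comp f) fun φ => ?_
  have h1 : ∀ m, ∃ t, zq hζ t = φ m := fun m => zq_tors hζ _ (by rw [← map_nsmul, hpM, map_zero])
  choose f hf using h1
  refine ⟨AddMonoidHom.mk' f (fun a b => ?_), ?_⟩
  · apply zq_inj hζ
    rw [map_add, hf, hf, hf, map_add]
  · ext m
    exact congrArg _ (hf m)

/-- **(W2a)** local duality in degree two. -/
theorem card_H2_le {M : Type*} [AddCommGroup M] [DistribMulAction (LG q) M] [Finite M]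
    (hpM : ∀ m : M, p • m = 0) (hsm : Sm (LG q) M) :
    Finite (H2l (LG q) M) ∧ Nat.card (H2l (LG q) M) ≤ Nat.card (HomEq (LG q) M (LM q)) := by
  classical
  haveI : NeZero ((p : ℕ) : Om q) := ⟨Nat.cast_ne_zero.mpr hp.out.ne_zero⟩
  obtain ⟨ζ, hζ⟩ := HasEnoughRootsOfUnity.exists_primitiveRoot (Om q) p
  haveI := finite_hom_LM hζ hpM (q := q)
  have ax := globAx hζ
  have htop : IsOpen ((⊤ : Subgroup (LG q)) : Set (LG q)) := isOpen_univ
  obtain ⟨I, hI⟩ := inv_U htop p
  have hT : ∀ (φ : HomEq (LG q) M (LM q)) (x : Z2l (LG q) M),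
      (fun g h : (⊤ : Subgroup (LG q)) => φ.1 (x.1 g h)) ∈ T2l (⊤ : Subgroup (LG q)) (LM q) p := by
    intro φ x
    refine ⟨res_Z2l ⊤ (map_Z2l x.2 φ.1 φ.2), ?_⟩
    have : p • (fun g h : (⊤ : Subgroup (LG q)) => φ.1 (x.1 g h)) = 0 := by
      funext g h
      show p • φ.1 (x.1 g h) = 0
      rw [← map_nsmul, hpM, map_zero]
    rw [this]; exact (B2l _ _).zero_mem
  have hres : ∀ y : LG q → LG q → LM q,
      (fun g h : (⊤ : Subgroup (LG q)) => y g h) ∈ B2l (⊤ : Subgroup (LG q)) (LM q) →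
      y ∈ B2l (LG q) (LM q) := by
    rintro y ⟨b, ⟨N, hN1, hN2⟩, hb⟩
    refine ⟨fun g => b ⟨g, trivial⟩, ⟨N.map (⊤ : Subgroup (LG q)).subtype, ?_, ?_⟩,
      fun g h => hb ⟨g, trivial⟩ ⟨h, trivial⟩⟩
    · have := htop.isOpenMap_subtype_val _ hN1
      rwa [Subgroup.coe_map]
    · rintro g _ ⟨n, hn, rfl⟩
      exact hN2 ⟨g, trivial⟩ n hn
  let F : Z2l (LG q) M →+ (HomEq (LG q) M (LM q) →+ ZMod p) :=
    { toFun := fun x => AddMonoidHom.mk' (fun φ => I ⟨_, hT φ x⟩) (fun φ φ' => by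
        rw [← map_add]; rfl)
      map_zero' := by
        ext φ
        show I _ = 0
        rw [hI]
        refine ⟨0, LC1.const 0, fun g h => ?_⟩
        show φ.1 0 = 0 + g • (0 : LM q) - 0
        rw [map_zero, smul_zero, sub_zero, add_zero]
      map_add' := fun x y => by
        ext φ
        show I _ = I _ + I _
        rw [← map_add]
        congr 1
        apply Subtype.ext
        funext g h
        exact map_add φ.1 _ _ }
  have hF : ∀ x φ, F x φ = I ⟨_, hT φ x⟩ := fun _ _ => rfl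
  have hker : F.ker ≤ (B2l (LG q) M).addSubgroupOf (Z2l (LG q) M) := by
    intro x hx
    rw [AddSubgroup.mem_addSubgroupOf]
    refine glob ax hpM hsm x.1 x.2 (fun φ hφ => ?_)
    have h1 := DFunLike.congr_fun hx (⟨φ, hφ⟩ : HomEq (LG q) M (LM q))
    rw [hF] at h1
    have h2 : I ⟨_, hT ⟨φ, hφ⟩ x⟩ = 0 := h1
    rw [hI] at h2
    exact hres _ h2
  haveI : Finite (HomEq (LG q) M (LM q) →+ ZMod p) := DFunLike.finite _
  haveI hfk : Finite (Z2l (LG q) M ⧸ F.ker) :=
    Finite.of_injective _ (QuotientAddGroup.kerLift_injective F)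
  have hsurj : Function.Surjective (QuotientAddGroup.map F.ker
      ((B2l (LG q) M).addSubgroupOf (Z2l (LG q) M)) (AddMonoidHom.id _) (by simpa using hker)) := by
    intro x
    obtain ⟨y, rfl⟩ := QuotientAddGroup.mk_surjective x
    exact ⟨QuotientAddGroup.mk y, rfl⟩
  refine ⟨Finite.of_surjective _ hsurj, ?_⟩
  calc Nat.card (H2l (LG q) M) ≤ Nat.card (Z2l (LG q) M ⧸ F.ker) :=
        Nat.card_le_card_of_surjective _ hsurj
    _ ≤ Nat.card (HomEq (LG q) M (LM q) →+ ZMod p) :=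
        Nat.card_le_card_of_injective _ (QuotientAddGroup.kerLift_injective F)
    _ = Nat.card (HomEq (LG q) M (LM q)) := card_hom_zmod (fun φ =>
        Subtype.ext (AddMonoidHom.ext fun m => by
          show p • φ.1 m = 0
          rw [← map_nsmul, hpM, map_zero]))

end

end Fermat.Agent.TWLocal
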