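import Fermat.Agent.TWLocal.Dev

set_option autoImplicit false
set_option maxHeartbeats 400000
set_option linter.style.haveILetI false
set_option linter.unusedSectionVars false

/-! Local duality in degree two: the induction. -/

namespace Fermat.Agent.TWLocal

open Fermat.Agent.CFT

noncomputable section

universe u v w

variable {p : ℕ} [hp : Fact p.Prime] {U : Type u} [Group U] [TopologicalSpace U]
  [IsTopologicalGroup U] [CompactSpace U] {C : Type v}
  [AddCommGroup C] [DistribMulAction U C] {zh : ZMod p →+ C} (ax : LocAx p U zh)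

/-- smooth modules -/
def Sm (U : Type*) [Group U] [TopologicalSpace U] (M : Type*) [AddCommGroup M]
    [DistribMulAction U M] : Prop :=
  ∃ N : Subgroup U, IsOpen (N : Set U) ∧ ∀ n ∈ N, ∀ m : M, n • m = m

theorem Sm.disc {M : Type*} [AddCommGroup M] [DistribMulAction U M] (h : Sm U M) : Disc U M := by
  obtain ⟨N, h1, h2⟩ := h
  exact fun m => ⟨N, h1, fun n hn => h2 n hn m⟩

include ax in
theorem dev_step {M : Type w} [AddCommGroup M] [DistribMulAction U M] (hpM : ∀ m : M, p • m = 0)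
    (hsm : Sm U M) (φ₁ : M →+ ZMod p) (hφ1 : φ₁ ≠ 0) (hinv : ∀ (g : U) m, φ₁ (g • m) = φ₁ m)
    (IH : letI := kerAct φ₁ hinv
      ∀ x ∈ Z2l U φ₁.ker, (∀ ψ : φ₁.ker →+ C, (∀ (g : U) m, ψ (g • m) = g • ψ m) →
        (fun g h => ψ (x g h)) ∈ B2l U C) → x ∈ B2l U φ₁.ker)
    (x : U → U → M) (hx : x ∈ Z2l U M)
    (hφ : ∀ φ : M →+ C, (∀ (g : U) m, φ (g • m) = g • φ m) → (fun g h => φ (x g h)) ∈ B2l U C) :
    x ∈ B2l U M := by
  classical
  letI := kerAct φ₁ hinv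
  obtain ⟨I, hI⟩ := ax.inv
  -- an element with value one
  obtain ⟨m₀, hm₀⟩ : ∃ m₀, φ₁ m₀ = 1 := by
    obtain ⟨m, hm⟩ := DFunLike.ne_iff.mp hφ1
    have hm' : φ₁ m ≠ 0 := hm
    refine ⟨(φ₁ m)⁻¹.val • m, ?_⟩
    rw [map_nsmul, nsmul_eq_mul, ZMod.natCast_zmod_val]
    exact inv_mul_cancel₀ hm'
  have hmh : ∀ t, φ₁ (mh m₀ (hpM m₀) t) = t := by
    intro t
    rw [mh_apply, map_nsmul, hm₀, nsmul_eq_mul, mul_one, ZMod.natCast_zmod_val]
  -- make `x` have values in the kernel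
  obtain ⟨β, hβ1, hβ2⟩ := exists_lift_B2 ax (y := fun g h => φ₁ (x g h))
    (hφ (zh.comp φ₁) (fun g m => by
      show zh (φ₁ (g • m)) = g • zh (φ₁ m)
      rw [hinv, ax.fixz]))
  let bt : U → M := fun g => mh m₀ (hpM m₀) (β g)
  have hbt : LC1 bt := hβ1.comp _
  have hx' : x - dd bt ∈ Z2l U M := (Z2l U M).sub_mem hx ⟨B2_le_Z2 (dd_mem_B2 bt), hbt.dd hsm.disc⟩
  have hker : ∀ g h, (x - dd bt) g h ∈ φ₁.ker := by
    intro g h
    rw [AddMonoidHom.mem_ker]
    show φ₁ (x g h - (bt g + g • bt h - bt (g * h))) = 0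
    have h0 : φ₁ (x g h) = β g + β h - β (g * h) := hβ2 g h
    rw [map_sub, map_sub, map_add, hinv, hmh, hmh, hmh, h0]
    ring
  let x₁ : U → U → φ₁.ker := fun g h => ⟨(x - dd bt) g h, hker g h⟩
  have hx₁ : x₁ ∈ Z2l U φ₁.ker := by
    refine ⟨fun g h k => Subtype.ext (hx'.1 g h k), ?_⟩
    obtain ⟨N, hN1, hN2⟩ := hx'.2
    exact ⟨N, hN1, fun g h n hn n' hn' => Subtype.ext (hN2 g h n hn n' hn')⟩
  have hφ' : ∀ φ : M →+ C, (∀ (g : U) m, φ (g • m) = g • φ m) →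
      (fun g h => φ ((x - dd bt) g h)) ∈ B2l U C := by
    intro φ he
    have h1 : (fun g h => φ ((x - dd bt) g h)) =
        (fun g h => φ (x g h)) - (fun g h => φ (dd bt g h)) := by
      funext g h
      exact map_sub φ _ _
    rw [h1]
    exact (B2l U C).sub_mem (hφ φ he) (map_B2l (dd_mem_B2l hbt) φ he)
  -- the characters attached to homomorphisms on the kernel
  have hm₀k : ∀ g : U, g • m₀ - m₀ ∈ φ₁.ker := by
    intro g
    rw [AddMonoidHom.mem_ker, map_sub, hinv, sub_self]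
  let k₀ : U → φ₁.ker := fun g => ⟨g • m₀ - m₀, hm₀k g⟩
  have hk₀ : ∀ g h, k₀ (g * h) = k₀ g + g • k₀ h := by
    intro g h
    apply Subtype.ext
    show (g * h) • m₀ - m₀ = (g • m₀ - m₀) + g • (h • m₀ - m₀)
    rw [smul_sub, mul_smul]; abel
  let E : AddSubgroup (φ₁.ker →+ C) :=
    { carrier := {ψ | ∀ (g : U) m, ψ (g • m) = g • ψ m}
      zero_mem' := fun g m => (smul_zero g).symm
      add_mem' := fun {a b} ha hb g m => by
        show a (g • m) + b (g • m) = g • (a m + b m)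
        rw [ha, hb, smul_add]
      neg_mem' := fun {a} ha g m => by
        show - a (g • m) = g • (- a m)
        rw [ha, smul_neg] }
  have hpk : ∀ m : φ₁.ker, p • m = 0 := fun m => Subtype.ext (hpM m.1)
  have hex : ∀ (ψ : E) (g : U), ∃ t, zh t = ψ.1 (k₀ g) := by
    intro ψ g
    apply ax.tors
    rw [← map_nsmul, hpk, map_zero]
  choose κ hκ using hex
  have hκmem : ∀ ψ : E, κ ψ ∈ HomU p U := by
    intro ψ
    refine ⟨fun g h => ?_, ?_⟩
    · apply ax.inj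
      rw [map_add, hκ, hκ, ← ax.fixz g (κ ψ h), hκ, ← ψ.2, ← map_add, hk₀]
    · obtain ⟨N, hN1, hN2⟩ := hsm
      refine ⟨N, hN1, fun g n hn => ?_⟩
      apply ax.inj
      rw [hκ, hκ]
      congr 1
      apply Subtype.ext
      show (g * n) • m₀ - m₀ = g • m₀ - m₀
      rw [mul_smul, hN2 n hn]
  let K : E →+ HomU p U := AddMonoidHom.mk' (fun ψ => ⟨κ ψ, hκmem ψ⟩) (fun ψ ψ' => by
    apply Subtype.ext
    funext g
    apply ax.inj
    show zh (κ (ψ + ψ') g) = zh (κ ψ g + κ ψ' g)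
    rw [map_add, hκ, hκ, hκ]; rfl)
  have hT : ∀ (ψ : E) (y : U → U → φ₁.ker), y ∈ Z2l U φ₁.ker → (fun g h => ψ.1 (y g h)) ∈ T2l U C p := by
    intro ψ y hy
    refine ⟨map_Z2l hy ψ.1 ψ.2, ?_⟩
    have : p • (fun g h => ψ.1 (y g h)) = (0 : U → U → C) := by
      funext g h
      show p • ψ.1 (y g h) = 0
      rw [← map_nsmul, hpk, map_zero]
    rw [this]; exact (B2l U C).zero_mem
  let l : E →+ ZMod p := AddMonoidHom.mk' (fun ψ => I ⟨_, hT ψ x₁ hx₁⟩) (fun ψ ψ' => by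
    rw [← map_add]; rfl)
  obtain ⟨L, hL⟩ := exists_factor (p := p) (V := HomU p U) (fun x => by
    apply Subtype.ext
    funext g
    show p • (x.1 g) = 0
    rw [nsmul_eq_mul, ZMod.natCast_self, zero_mul]) (fun ψ : E => by
    apply Subtype.ext
    ext m
    show p • ψ.1 m = 0
    rw [← map_nsmul, hpk, map_zero]) K l (fun ψ h0 => by
    show I _ = 0
    rw [hI]
    -- extend `ψ` to `M`
    have hpr : ∀ m : M, m - mh m₀ (hpM m₀) (φ₁ m) ∈ φ₁.ker := by
      intro m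
      rw [AddMonoidHom.mem_ker, map_sub, hmh, sub_self]
    let ψt : M →+ C := AddMonoidHom.mk' (fun m => ψ.1 ⟨_, hpr m⟩) (fun a b => by
      rw [← map_add]
      congr 1
      apply Subtype.ext
      show (a + b) - mh m₀ (hpM m₀) (φ₁ (a + b)) = (a - mh m₀ (hpM m₀) (φ₁ a)) +
        (b - mh m₀ (hpM m₀) (φ₁ b))
      rw [map_add, map_add]; abel)
    have hψt : ∀ m, ψt m = ψ.1 ⟨_, hpr m⟩ := fun _ => rfl
    have hψe : ∀ (g : U) m, ψt (g • m) = g • ψt m := by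
      intro g m
      rw [hψt, hψt, ← ψ.2]
      have h1 : (⟨_, hpr (g • m)⟩ : φ₁.ker) = g • ⟨_, hpr m⟩ + (φ₁ m).val • k₀ g := by
        apply Subtype.ext
        show g • m - mh m₀ (hpM m₀) (φ₁ (g • m)) =
          g • (m - mh m₀ (hpM m₀) (φ₁ m)) + (φ₁ m).val • (g • m₀ - m₀)
        rw [hinv, smul_sub, mh_apply, smul_sub, smul_comm g]; abel
      rw [h1, map_add, map_nsmul]
      have h2 : κ ψ g = 0 := congrFun (congrArg Subtype.val h0) g
      rw [← hκ ψ g, h2, map_zero, smul_zero, add_zero]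
    have h3 := hφ' ψt hψe
    have h4 : (fun g h => ψt ((x - dd bt) g h)) = fun g h => ψ.1 (x₁ g h) := by
      funext g h
      rw [hψt]
      congr 1
      apply Subtype.ext
      show (x - dd bt) g h - mh m₀ (hpM m₀) (φ₁ ((x - dd bt) g h)) = (x - dd bt) g h
      rw [show φ₁ ((x - dd bt) g h) = 0 from hker g h, map_zero, sub_zero]
    rw [h4] at h3
    exact h3)
  obtain ⟨ω, hω⟩ := exists_pairing ax I hI L
  -- the correction
  let δ : U → U → φ₁.ker := fun g h => (ω.1 h).val • k₀ g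
  have hδψ : ∀ ψ : E, (fun g h => ψ.1 (δ g h)) = pcup zh (κ ψ) ω.1 := by
    intro ψ
    funext g h
    show ψ.1 ((ω.1 h).val • k₀ g) = zh (κ ψ g * ω.1 h)
    rw [map_nsmul, zh_mul, hκ]
  let bω : U → M := fun g => mh m₀ (hpM m₀) (ω.1 g)
  have hbω : LC1 bω := ω.2.2.comp _
  have hδ : ∀ g h, ((δ g h : φ₁.ker) : M) = dd bω g h := by
    intro g h
    show (ω.1 h).val • (g • m₀ - m₀) = bω g + g • bω h - bω (g * h)
    have h1 : bω (g * h) = bω g + bω h := by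
      show mh m₀ (hpM m₀) (ω.1 (g * h)) = _
      rw [ω.2.1, map_add]
    rw [h1]
    show (ω.1 h).val • (g • m₀ - m₀) = bω g + g • ((ω.1 h).val • m₀) - (bω g + (ω.1 h).val • m₀)
    rw [smul_sub, smul_comm g]; abel
  have hδZ : δ ∈ Z2l U φ₁.ker := by
    have h1 : dd bω ∈ Z2l U M := ⟨B2_le_Z2 (dd_mem_B2 bω), hbω.dd hsm.disc⟩
    refine ⟨fun g h k => Subtype.ext ?_, ?_⟩
    · show ((δ g h : φ₁.ker) : M) + (δ (g * h) k : φ₁.ker) =
        g • ((δ h k : φ₁.ker) : M) + (δ g (h * k) : φ₁.ker)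
      rw [hδ, hδ, hδ, hδ]
      exact h1.1 g h k
    · obtain ⟨N, hN1, hN2⟩ := h1.2
      exact ⟨N, hN1, fun g h n hn n' hn' => Subtype.ext (by
        rw [hδ, hδ]; exact hN2 g h n hn n' hn')⟩
  have hx₂ : x₁ - δ ∈ Z2l U φ₁.ker := (Z2l U φ₁.ker).sub_mem hx₁ hδZ
  have hfin := IH (x₁ - δ) hx₂ (fun ψ hψ => by
    have h1 : I ⟨_, hT ⟨ψ, hψ⟩ x₁ hx₁⟩ = I ⟨_, hT ⟨ψ, hψ⟩ δ hδZ⟩ := by
      have h2 : l ⟨ψ, hψ⟩ = L (K ⟨ψ, hψ⟩) := (hL _).symm
      have h3 : I ⟨_, hT ⟨ψ, hψ⟩ x₁ hx₁⟩ = l ⟨ψ, hψ⟩ := rfl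
      rw [h3, h2, hω]
      congr 1
      apply Subtype.ext
      exact (hδψ ⟨ψ, hψ⟩).symm
    rw [← sub_eq_zero, ← map_sub, hI] at h1
    have h4 : (fun g h => ψ ((x₁ - δ) g h)) =
        (fun g h => ψ (x₁ g h)) - (fun g h => ψ (δ g h)) := by
      funext g h
      exact map_sub ψ _ _
    rw [h4]
    exact h1)
  obtain ⟨b₂, hb1, hb2⟩ := hfin
  have h1 : x = dd (fun g => (b₂ g : M)) + dd bω + dd bt := by
    funext g h
    have h2 := congrArg Subtype.val (hb2 g h)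
    have h3 : (x - dd bt) g h - (δ g h : φ₁.ker) =
      (b₂ g : M) + g • (b₂ h : M) - (b₂ (g * h) : M) := h2
    rw [hδ] at h3
    show x g h = ((b₂ g : M) + g • (b₂ h : M) - (b₂ (g * h) : M)) + dd bω g h + dd bt g h
    rw [← h3]
    show x g h = (x g h - dd bt g h) - dd bω g h + dd bω g h + dd bt g h
    abel
  rw [h1]
  exact (B2l U M).add_mem ((B2l U M).add_mem (dd_mem_B2l (hb1.comp _)) (dd_mem_B2l hbω))
    (dd_mem_B2l hbt)

include ax in
theorem dev_main (n : ℕ) : ∀ (M : Type w) [AddCommGroup M] [DistribMulAction U M] [Finite M],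
    Nat.card M ≤ n → (∀ m : M, p • m = 0) →
    (∃ (N : Subgroup U) (_ : N.Normal), IsOpen (N : Set U) ∧ IsPGroup p (U ⧸ N) ∧
      ∀ n ∈ N, ∀ m : M, n • m = m) → ∀ x ∈ Z2l U M,
      (∀ φ : M →+ C, (∀ (g : U) m, φ (g • m) = g • φ m) → (fun g h => φ (x g h)) ∈ B2l U C) →
      x ∈ B2l U M := by
  induction n with
  | zero =>
    intro M _ _ _ hn
    exact absurd (Nat.card_pos (α := M)) (by omega)
  | succ n ih =>
    intro M _ _ _ hn hpM hN x hx hφ
    rcases subsingleton_or_nontrivial M with hs | hs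
    · have : x = 0 := by
        funext g h
        exact Subsingleton.elim _ _
      rw [this]; exact (B2l U M).zero_mem
    · obtain ⟨N, hN1, hN2, hN3, hN4⟩ := hN
      obtain ⟨φ₁, h1, h2⟩ := exists_inv_functional hpM hN4 hN3
      refine dev_step ax hpM ⟨N, hN2, hN4⟩ φ₁ h1 h2 ?_ x hx hφ
      letI := kerAct φ₁ h2
      refine ih φ₁.ker ?_ (fun m => Subtype.ext (hpM m.1))
        ⟨N, hN1, hN2, hN3, fun n hn m => Subtype.ext (hN4 n hn m.1)⟩
      have hlt : Nat.card φ₁.ker < Nat.card M := by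
        obtain ⟨m, hm⟩ := DFunLike.ne_iff.mp h1
        exact Finite.card_subtype_lt (p := fun m => m ∈ φ₁.ker) (x := m) hm
      omega

end

end Fermat.Agent.TWLocal
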