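import Mathlib

set_option autoImplicit false
set_option maxHeartbeats 400000
set_option linter.style.haveILetI false
set_option linter.unusedSectionVars false

/-! Duality for finite elementary abelian groups. -/

namespace Fermat.Agent.TWLocal

variable {p : ℕ} [hp : Fact p.Prime]

section modl

variable {V : Type*} [AddCommGroup V] [Module (ZMod p) V]

theorem card_hom_zmod_aux [Finite V] : Nat.card (V →+ ZMod p) = Nat.card V := by
  let e : (V →+ ZMod p) ≃ Module.Dual (ZMod p) V :=
    { toFun := fun f => f.toZModLinearMap p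
      invFun := fun f => f.toAddMonoidHom
      left_inv := fun f => by ext; rfl
      right_inv := fun f => by ext; rfl }
  haveI : Finite (V →+ ZMod p) := DFunLike.finite _
  haveI : Fintype V := Fintype.ofFinite _
  haveI : Finite (Module.Dual (ZMod p) V) := Finite.of_equiv _ e
  haveI : Fintype (Module.Dual (ZMod p) V) := Fintype.ofFinite _
  rw [Nat.card_congr e, Nat.card_eq_fintype_card, Nat.card_eq_fintype_card,
    Module.card_eq_pow_finrank (K := ZMod p) (V := V),
    Module.card_eq_pow_finrank (K := ZMod p) (V := Module.Dual (ZMod p) V),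
    Subspace.dual_finrank_eq]

theorem exists_factor_aux {E : Type*} [AddCommGroup E] [Module (ZMod p) E]
    (κ : E →+ V) (l : E →+ ZMod p) (h : ∀ e, κ e = 0 → l e = 0) :
    ∃ L : V →+ ZMod p, ∀ e, L (κ e) = l e := by
  have h1 : l.toZModLinearMap p ∈ (LinearMap.ker (κ.toZModLinearMap p)).dualAnnihilator := by
    rw [Submodule.mem_dualAnnihilator]
    intro e he
    exact h e he
  rw [← LinearMap.range_dualMap_eq_dualAnnihilator_ker] at h1
  obtain ⟨L, hL⟩ := h1
  exact ⟨L.toAddMonoidHom, fun e => LinearMap.congr_fun hL e⟩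

theorem exists_embed_aux (hdep : ∀ x y : V, x ≠ 0 → ∃ k : ℤ, y = k • x) :
    ∃ I : V →+ ZMod p, Function.Injective I := by
  classical
  by_cases h0 : ∀ x : V, x = 0
  · exact ⟨0, fun x y _ => by rw [h0 x, h0 y]⟩
  push Not at h0
  obtain ⟨x, hx⟩ := h0
  have hinj : Function.Injective (LinearMap.toSpanSingleton (ZMod p) V x) := by
    rw [← LinearMap.ker_eq_bot, LinearMap.ker_toSpanSingleton (ZMod p) hx]
  have hsurj : Function.Surjective (LinearMap.toSpanSingleton (ZMod p) V x) := by
    intro y
    obtain ⟨k, hk⟩ := hdep x y hx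
    refine ⟨(k : ZMod p), ?_⟩
    rw [LinearMap.toSpanSingleton_apply, hk]
    exact Int.cast_smul_eq_zsmul (ZMod p) k x
  let e := LinearEquiv.ofBijective _ ⟨hinj, hsurj⟩
  exact ⟨e.symm.toLinearMap.toAddMonoidHom, e.symm.injective⟩

end modl

section

variable {V : Type*} [AddCommGroup V]

theorem card_hom_zmod [Finite V] (hV : ∀ v : V, p • v = 0) :
    Nat.card (V →+ ZMod p) = Nat.card V :=
  @card_hom_zmod_aux p _ V _ (AddCommGroup.zmodModule hV) _

theorem surj_of_inj_dual [Finite V] (hV : ∀ v : V, p • v = 0) {W : Type*} [Finite W]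
    (b : W → (V →+ ZMod p)) (hb : Function.Injective b) (hc : Nat.card V ≤ Nat.card W) :
    Function.Surjective b := by
  haveI : Finite (V →+ ZMod p) := DFunLike.finite _
  haveI : Fintype W := Fintype.ofFinite _
  haveI : Fintype (V →+ ZMod p) := Fintype.ofFinite _
  have h1 : Nat.card (V →+ ZMod p) ≤ Nat.card W := (card_hom_zmod hV).trans_le hc
  have h2 := Nat.card_le_card_of_injective b hb
  exact ((Fintype.bijective_iff_injective_and_card b).mpr ⟨hb, by
    rw [← Nat.card_eq_fintype_card, ← Nat.card_eq_fintype_card]; exact le_antisymm h2 h1⟩).2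

/-- factor a functional -/
theorem exists_factor {E : Type*} [AddCommGroup E] (hV : ∀ v : V, p • v = 0)
    (hE : ∀ e : E, p • e = 0) (κ : E →+ V) (l : E →+ ZMod p) (h : ∀ e, κ e = 0 → l e = 0) :
    ∃ L : V →+ ZMod p, ∀ e, L (κ e) = l e :=
  @exists_factor_aux p _ V _ (AddCommGroup.zmodModule hV) E _ (AddCommGroup.zmodModule hE) κ l h

/-- a group in which any two elements are dependent embeds into `ZMod p` -/
theorem exists_embed (hV : ∀ v : V, p • v = 0)
    (hdep : ∀ x y : V, x ≠ 0 → ∃ k : ℤ, y = k • x) :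
    ∃ I : V →+ ZMod p, Function.Injective I :=
  @exists_embed_aux p _ V _ (AddCommGroup.zmodModule hV) hdep

end

end Fermat.Agent.TWLocal
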