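import Fermat.Agent.TWLocal.LC
import Fermat.Agent.CFT.Shapiro

set_option autoImplicit false
set_option maxHeartbeats 400000
set_option linter.style.haveILetI false
set_option linter.unusedSectionVars false

/-! Corestriction for locally constant cochains. -/

namespace Fermat.Agent.TWLocal

open Fermat.Agent.CFT Finset

noncomputable section

variable {G : Type*} [Group G] {A : Type*} [AddCommGroup A] [DistribMulAction G A]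
  {C : Type*} [AddCommGroup C] [DistribMulAction G C]

/-- trace of a homomorphism -/
def trH (P : Subgroup G) [Fintype (G ⧸ P)] (Φ : A →+ C) : A →+ C :=
  ∑ t : G ⧸ P, (DistribSMul.toAddMonoidHom C t.out).comp
    (Φ.comp (DistribSMul.toAddMonoidHom A (t.out)⁻¹))

theorem trH_apply (P : Subgroup G) [Fintype (G ⧸ P)] (Φ : A →+ C) (a : A) :
    trH P Φ a = ∑ t : G ⧸ P, t.out • Φ ((t.out)⁻¹ • a) := by
  rw [trH, AddMonoidHom.finsetSum_apply]; rfl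

theorem out_eq (P : Subgroup G) (F : G → C) (hF : ∀ g, ∀ d ∈ P, F (g * d) = F g) (g : G) :
    F (QuotientGroup.mk g : G ⧸ P).out = F g := by
  obtain ⟨d, hd⟩ := QuotientGroup.mk_out_eq_mul P g
  rw [hd, hF _ _ d.2]

theorem trH_inv {P : Subgroup G} {Φ : A →+ C} (hΦ : ∀ d ∈ P, ∀ a, Φ (d • a) = d • Φ a) (a : A) :
    ∀ g, ∀ d ∈ P, (g * d) • Φ ((g * d)⁻¹ • a) = g • Φ (g⁻¹ • a) := by
  intro g d hd
  rw [mul_inv_rev, mul_smul, mul_smul, hΦ _ (P.inv_mem hd), smul_inv_smul]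

theorem trH_smul {P : Subgroup G} [Fintype (G ⧸ P)] {Φ : A →+ C}
    (hΦ : ∀ d ∈ P, ∀ a, Φ (d • a) = d • Φ a) (g : G) (a : A) :
    trH P Φ (g • a) = g • trH P Φ a := by
  rw [trH_apply, trH_apply, smul_sum, ← Equiv.sum_comp (MulAction.toPerm g : Equiv.Perm (G ⧸ P))]
  refine sum_congr rfl fun q _ => ?_
  induction q using QuotientGroup.induction_on with
  | H h =>
    have h1 : (MulAction.toPerm g : Equiv.Perm (G ⧸ P)) (QuotientGroup.mk h) =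
      QuotientGroup.mk (g * h) := rfl
    rw [h1, out_eq P (fun x => x • Φ (x⁻¹ • g • a)) (trH_inv hΦ (g • a)) (g * h),
      out_eq P (fun x => x • Φ (x⁻¹ • a)) (trH_inv hΦ a) h, mul_inv_rev, mul_smul, mul_smul,
      inv_smul_smul]

theorem trH_of_equi {P : Subgroup G} [Fintype (G ⧸ P)] {Φ : A →+ C}
    (hΦ : ∀ (d : G) a, Φ (d • a) = d • Φ a) (a : A) : trH P Φ a = P.index • Φ a := by
  rw [trH_apply, sum_congr rfl (g := fun _ => Φ a), sum_const, card_univ,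
    ← Nat.card_eq_fintype_card]
  · rfl
  · intro t _
    rw [hΦ, smul_inv_smul]

variable [TopologicalSpace G] [IsTopologicalGroup G] [CompactSpace G]

/-- corestriction -/
theorem cor_tr (hA : Disc G A) (hC : Disc G C) (P : Subgroup G) [Fintype (G ⧸ P)]
    (hP : IsOpen (P : Set G)) {x : G → G → A} (hx : x ∈ Z2l G A) (Φ : A →+ C)
    (hΦ : ∀ d ∈ P, ∀ a, Φ (d • a) = d • Φ a)
    (hres : (fun g h : P => Φ (x g h)) ∈ B2l P C) :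
    (fun g h => trH P Φ (x g h)) ∈ B2l G C := by
  obtain ⟨b, ⟨Nb, hNb1, hNb2⟩, hb⟩ := hres
  obtain ⟨ρ, hρ⟩ := exists_retraction P.subtype P.subtype_injective
  have hρ' : ∀ (d : P) g, ρ ((d : G) * g) = d * ρ g := hρ
  let η : G → G → G → C := fun g0 g1 g2 => Φ (g0 • x (g0⁻¹ * g1) (g1⁻¹ * g2))
  have hη : ∀ g0 g1 g2, η g0 g1 g2 = Φ (g0 • x (g0⁻¹ * g1) (g1⁻¹ * g2)) := fun _ _ _ => rfl
  have hηG : ∀ (d : P) g0 g1 g2, η (d * g0) (d * g1) (d * g2) = d • η g0 g1 g2 := by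
    intro h g0 g1 g2
    rw [hη, hη, mul_smul, hΦ _ h.2]
    rw [show ((h : G) * g0)⁻¹ * (h * g1) = g0⁻¹ * g1 by group,
      show ((h : G) * g1)⁻¹ * (h * g2) = g1⁻¹ * g2 by group]
    rfl
  have hηc : ∀ g0 g1 g2 g3, η g0 g1 g2 + η g0 g2 g3 = η g1 g2 g3 + η g0 g1 g3 := by
    intro g0 g1 g2 g3
    have h := hx.1 (g0⁻¹ * g1) (g1⁻¹ * g2) (g2⁻¹ * g3)
    rw [show g0⁻¹ * g1 * (g1⁻¹ * g2) = g0⁻¹ * g2 by group,
      show g1⁻¹ * g2 * (g2⁻¹ * g3) = g1⁻¹ * g3 by group] at h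
    rw [hη, hη, hη, hη, ← map_add, ← map_add, ← smul_add, h]
    rw [smul_add, smul_smul, show g0 * (g0⁻¹ * g1) = g1 by group]
  have hb' : ∀ d0 d1 d2 : P, η d0 d1 d2 =
      d1 • b (d1⁻¹ * d2) - d0 • b (d0⁻¹ * d2) + d0 • b (d0⁻¹ * d1) := by
    intro d0 d1 d2
    have h1 := hb (d0⁻¹ * d1) (d1⁻¹ * d2)
    rw [show d0⁻¹ * d1 * (d1⁻¹ * d2) = d0⁻¹ * d2 by group] at h1
    have h2 : Φ (x ((d0 : G)⁻¹ * d1) ((d1 : G)⁻¹ * d2)) =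
        b (d0⁻¹ * d1) + (d0⁻¹ * d1) • b (d1⁻¹ * d2) - b (d0⁻¹ * d2) := h1
    rw [hη, hΦ _ d0.2, h2]
    show (d0 : G) • (b (d0⁻¹ * d1) + ((d0⁻¹ * d1 : P) : G) • b (d1⁻¹ * d2) - b (d0⁻¹ * d2)) =
      (d1 : G) • b (d1⁻¹ * d2) - (d0 : G) • b (d0⁻¹ * d2) + (d0 : G) • b (d0⁻¹ * d1)
    rw [smul_sub, smul_add, smul_smul,
      show (d0 : G) * ((d0⁻¹ * d1 : P) : G) = d1 by push_cast; group]
    abel
  let B : G → G → C := fun g0 g1 => ρ g0 • b ((ρ g0)⁻¹ * ρ g1) -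
    (η (ρ g0) (ρ g1) g1 - η (ρ g0) g0 g1)
  have hB1 : ∀ (d : P) g0 g1, B (d * g0) (d * g1) = d • B g0 g1 := by
    intro d g0 g1
    show ρ (d * g0) • b ((ρ (d * g0))⁻¹ * ρ (d * g1)) -
      (η (ρ (d * g0)) (ρ (d * g1)) (d * g1) - η (ρ (d * g0)) (d * g0) (d * g1)) = _
    rw [hρ', hρ', Subgroup.coe_mul, Subgroup.coe_mul, hηG, hηG]
    have : (d * ρ g0)⁻¹ * (d * ρ g1) = (ρ g0)⁻¹ * ρ g1 := by group
    rw [this, mul_smul]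
    show _ = d • (ρ g0 • b ((ρ g0)⁻¹ * ρ g1) - (η (ρ g0) (ρ g1) g1 - η (ρ g0) g0 g1))
    rw [smul_sub, smul_sub]
  have hB2 : ∀ g0 g1 g2, η g0 g1 g2 = B g1 g2 - B g0 g2 + B g0 g1 := by
    intro g0 g1 g2
    have h1 := hηc (ρ g0) (ρ g1) (ρ g2) g2
    have h2 := hηc (ρ g0) (ρ g1) g1 g2
    have h3 := hηc (ρ g0) g0 g1 g2
    have h4 := hb' (ρ g0) (ρ g1) (ρ g2)
    have e3 : η g0 g1 g2 = η (ρ g0) g0 g1 + η (ρ g0) g1 g2 - η (ρ g0) g0 g2 := by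
      rw [h3]; abel
    have e2 : η (ρ g0) g1 g2 = η (ρ g1) g1 g2 + η (ρ g0) (ρ g1) g2
        - η (ρ g0) (ρ g1) g1 := by
      rw [← h2]; abel
    have e1 : η (ρ g0) (ρ g1) g2 = η (ρ g0) (ρ g1) (ρ g2) +
        η (ρ g0) (ρ g2) g2 - η (ρ g1) (ρ g2) g2 := by
      rw [h1]; abel
    show _ = (ρ g1 • b ((ρ g1)⁻¹ * ρ g2) - (η (ρ g1) (ρ g2) g2 - η (ρ g1) g1 g2)) -
      (ρ g0 • b ((ρ g0)⁻¹ * ρ g2) - (η (ρ g0) (ρ g2) g2 - η (ρ g0) g0 g2)) +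
      (ρ g0 • b ((ρ g0)⁻¹ * ρ g1) - (η (ρ g0) (ρ g1) g1 - η (ρ g0) g0 g1))
    rw [e3, e2, e1, h4]
    abel
  -- level
  obtain ⟨Nx, hNx1, hNx2, hNx3⟩ := hx.2.exists_level hA
  have hNbo : IsOpen ((Nb.map P.subtype : Subgroup G) : Set G) := by
    have := hP.isOpenMap_subtype_val _ hNb1
    rwa [Subgroup.coe_map]
  obtain ⟨N, hN1, hN2, hN3⟩ := exists_normal_le (open_inf hNx2 hNbo)
  have hNP : N ≤ P := fun n hn => by
    obtain ⟨y, -, rfl⟩ := (hN3 hn).2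
    exact y.2
  have hbN : ∀ (d : P) (n : G) (hn : n ∈ N), b (d * ⟨n, hNP hn⟩) = b d := by
    intro d n hn
    obtain ⟨y, hy1, hy2⟩ := (hN3 hn).2
    have : (⟨n, hNP hn⟩ : P) = y := Subtype.ext hy2.symm
    rw [this]
    exact hNb2 d y hy1
  have hxN1 : ∀ g h, ∀ k ∈ N, x (g * k) h = x g h := fun g h k hk => hNx3.1 g h k (hN3 hk).1
  have hxN2 : ∀ g h, ∀ k ∈ N, x g (h * k) = x g h := fun g h k hk => hNx3.2.1 g h k (hN3 hk).1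
  have hρN : ∀ g : G, ∀ n ∈ N, ∃ n' : G, ∃ hn' : n' ∈ N, ρ (g * n) = ρ g * ⟨n', hNP hn'⟩ := by
    intro g n hn
    have h1 : g * n * g⁻¹ ∈ N := hN1.conj_mem n hn g
    have h2 : ((ρ g : G))⁻¹ * (g * n * g⁻¹) * ρ g ∈ N := by
      have := hN1.conj_mem _ h1 ((ρ g : G))⁻¹
      rwa [inv_inv] at this
    refine ⟨_, h2, ?_⟩
    have h3 := hρ' ⟨g * n * g⁻¹, hNP h1⟩ g
    rw [show ((⟨g * n * g⁻¹, hNP h1⟩ : P) : G) * g = g * n by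
      show g * n * g⁻¹ * g = g * n
      group] at h3
    rw [h3]
    apply Subtype.ext
    show g * n * g⁻¹ * (ρ g : G) = ρ g * (((ρ g : G))⁻¹ * (g * n * g⁻¹) * ρ g)
    group
  have hηN : ∀ g0 g1 g2, ∀ n ∈ N, ∀ n' ∈ N, η g0 (g1 * n') (g2 * n) = η g0 g1 g2 := by
    intro g0 g1 g2 n hn n' hn'
    rw [hη, hη]
    have e1 : g0⁻¹ * (g1 * n') = (g0⁻¹ * g1) * n' := by group
    have e2 : (g1 * n')⁻¹ * (g2 * n) =
      (g1⁻¹ * g2) * (((g1⁻¹ * g2)⁻¹ * n'⁻¹ * (g1⁻¹ * g2)) * n) := by group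
    rw [e1, e2, hxN1 _ _ _ hn', hxN2 _ _ _ (N.mul_mem (by
      have := hN1.conj_mem _ (N.inv_mem hn') (g1⁻¹ * g2)⁻¹
      rwa [inv_inv] at this) hn)]
  have hBN : ∀ g0 g1, ∀ n ∈ N, B g0 (g1 * n) = B g0 g1 := by
    intro g0 g1 n hn
    obtain ⟨n', hn', hρn⟩ := hρN g1 n hn
    show ρ g0 • b ((ρ g0)⁻¹ * ρ (g1 * n)) -
      (η (ρ g0) (ρ (g1 * n)) (g1 * n) - η (ρ g0) g0 (g1 * n)) =
      ρ g0 • b ((ρ g0)⁻¹ * ρ g1) - (η (ρ g0) (ρ g1) g1 - η (ρ g0) g0 g1)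
    have e1 : (ρ g0)⁻¹ * (ρ g1 * ⟨n', hNP hn'⟩) = ((ρ g0)⁻¹ * ρ g1) * ⟨n', hNP hn'⟩ :=
      (mul_assoc _ _ _).symm
    have e2 := hηN (ρ g0) g0 g1 n hn 1 N.one_mem
    rw [mul_one] at e2
    rw [hρn, e1, hbN _ _ hn', Subgroup.coe_mul, hηN _ _ _ n hn n' hn', e2]
  -- the averaged cochain
  have hinv : ∀ g0 g1 : G, ∀ g, ∀ d ∈ P, (g * d) • B ((g * d)⁻¹ * g0) ((g * d)⁻¹ * g1) =
        g • B (g⁻¹ * g0) (g⁻¹ * g1) := by
    intro g0 g1 g d hd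
    have h1 := hB1 ⟨d, hd⟩ ((g * d)⁻¹ * g0) ((g * d)⁻¹ * g1)
    rw [show ((⟨d, hd⟩ : P) : G) * ((g * d)⁻¹ * g0) = g⁻¹ * g0 by
      show d * ((g * d)⁻¹ * g0) = g⁻¹ * g0
      group,
      show ((⟨d, hd⟩ : P) : G) * ((g * d)⁻¹ * g1) = g⁻¹ * g1 by
      show d * ((g * d)⁻¹ * g1) = g⁻¹ * g1
      group] at h1
    rw [h1, mul_smul]
    rfl
  let Bb : G → G → C := fun g0 g1 => ∑ t : G ⧸ P, t.out • B ((t.out)⁻¹ * g0) ((t.out)⁻¹ * g1)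
  have hBbG : ∀ h g0 g1, Bb (h * g0) (h * g1) = h • Bb g0 g1 := by
    intro h g0 g1
    show ∑ t : G ⧸ P, t.out • B ((t.out)⁻¹ * (h * g0)) ((t.out)⁻¹ * (h * g1)) =
      h • ∑ t : G ⧸ P, t.out • B ((t.out)⁻¹ * g0) ((t.out)⁻¹ * g1)
    rw [smul_sum, ← Equiv.sum_comp (MulAction.toPerm h : Equiv.Perm (G ⧸ P))]
    refine sum_congr rfl fun q _ => ?_
    induction q using QuotientGroup.induction_on with
    | H g =>
      have h1 : (MulAction.toPerm h : Equiv.Perm (G ⧸ P)) (QuotientGroup.mk g) =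
        QuotientGroup.mk (h * g) := rfl
      rw [h1, out_eq P (fun y => y • B (y⁻¹ * (h * g0)) (y⁻¹ * (h * g1)))
        (hinv (h * g0) (h * g1)) (h * g),
        out_eq P (fun y => y • B (y⁻¹ * g0) (y⁻¹ * g1)) (hinv g0 g1) g,
        show (h * g)⁻¹ * (h * g0) = g⁻¹ * g0 by group,
        show (h * g)⁻¹ * (h * g1) = g⁻¹ * g1 by group, mul_smul]
  have hBbd : ∀ g0 g1 g2, trH P Φ (g0 • x (g0⁻¹ * g1) (g1⁻¹ * g2)) =
      Bb g1 g2 - Bb g0 g2 + Bb g0 g1 := by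
    intro g0 g1 g2
    rw [trH_apply]
    show _ = ∑ t : G ⧸ P, t.out • B ((t.out)⁻¹ * g1) ((t.out)⁻¹ * g2) -
      ∑ t : G ⧸ P, t.out • B ((t.out)⁻¹ * g0) ((t.out)⁻¹ * g2) +
      ∑ t : G ⧸ P, t.out • B ((t.out)⁻¹ * g0) ((t.out)⁻¹ * g1)
    rw [← sum_sub_distrib, ← sum_add_distrib]
    refine sum_congr rfl fun t _ => ?_
    rw [← smul_sub, ← smul_add, ← hB2, hη]
    rw [show ((t.out)⁻¹ * g0)⁻¹ * ((t.out)⁻¹ * g1) = g0⁻¹ * g1 by group,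
      show ((t.out)⁻¹ * g1)⁻¹ * ((t.out)⁻¹ * g2) = g1⁻¹ * g2 by group, smul_smul]
  refine ⟨fun g => Bb 1 g, ⟨N, hN2, fun g n hn => ?_⟩, fun g h => ?_⟩
  · show ∑ t : G ⧸ P, t.out • B ((t.out)⁻¹ * 1) ((t.out)⁻¹ * (g * n)) =
      ∑ t : G ⧸ P, t.out • B ((t.out)⁻¹ * 1) ((t.out)⁻¹ * g)
    refine sum_congr rfl fun t _ => ?_
    rw [← mul_assoc (t.out)⁻¹ g n, hBN _ _ n hn]
  · have h1 := hBbd 1 g (g * h)
    have h2 := hBbG g 1 h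
    rw [mul_one] at h2
    rw [one_smul, inv_one, one_mul, inv_mul_cancel_left] at h1
    show trH P Φ (x g h) = Bb 1 g + g • Bb 1 h - Bb 1 (g * h)
    rw [h1, h2]
    abel

end

end Fermat.Agent.TWLocal
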