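import Fermat.Agent.TWLocal.Glob
import Fermat.Agent.CFT.TN4

set_option autoImplicit false
set_option maxHeartbeats 400000
set_option linter.style.haveILetI false
set_option linter.unusedSectionVars false

/-! Descent of locally constant cochains to finite level. -/

namespace Fermat.Agent.TWLocal

open Fermat.Agent.CFT Finset

noncomputable section

section desc

variable {D : Type*} [Group D] {A : Type*} [AddCommGroup A] [DistribMulAction D A]
  (N U : Subgroup D) [N.Normal]

/-- the image of `U` in the finite quotient -/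
abbrev PU : Subgroup (D ⧸ N) := U.map (QuotientGroup.mk' N)

/-- the projection -/
def piU : U →* PU N U := (QuotientGroup.mk' N).subgroupMap U

theorem piU_surj : Function.Surjective (piU N U) :=
  (QuotientGroup.mk' N).subgroupMap_surjective U

theorem piU_val (g : U) : ((piU N U g : PU N U) : D ⧸ N) = QuotientGroup.mk (g : D) := rfl

theorem piU_eq {g h : U} (e : piU N U g = piU N U h) : (g : D)⁻¹ * h ∈ N := by
  have h1 := congrArg Subtype.val e
  rw [piU_val, piU_val, QuotientGroup.eq] at h1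
  exact h1

theorem piU_smul (g : U) (a : fix A N) : ((piU N U g • a : fix A N) : A) = g • (a : A) := rfl

theorem desc1 {c : U → A} (hc : ∀ g n : U, (n : D) ∈ N → c (g * n) = c g)
    (hf : ∀ g, ∀ n ∈ N, n • c g = c g) :
    ∃ c' : PU N U → fix A N, ∀ g, ((c' (piU N U g) : fix A N) : A) = c g := by
  choose s hs using piU_surj N U
  refine ⟨fun y => ⟨c (s y), hf _⟩, fun g => ?_⟩
  show c (s (piU N U g)) = c g
  have h1 := piU_eq N U (hs (piU N U g))
  have h2 := hc (s (piU N U g)) ((s (piU N U g))⁻¹ * g) h1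
  rw [mul_inv_cancel_left] at h2
  exact h2.symm

theorem desc2 {c : U → U → A} (hc : ∀ g h n : U, (n : D) ∈ N → c (g * n) h = c g h)
    (hc' : ∀ g h n : U, (n : D) ∈ N → c g (h * n) = c g h)
    (hf : ∀ g h, ∀ n ∈ N, n • c g h = c g h) :
    ∃ c' : PU N U → PU N U → fix A N,
      ∀ g h, ((c' (piU N U g) (piU N U h) : fix A N) : A) = c g h := by
  choose s hs using piU_surj N U
  refine ⟨fun y z => ⟨c (s y) (s z), hf _ _⟩, fun g h => ?_⟩
  show c (s (piU N U g)) (s (piU N U h)) = c g h
  have h1 := piU_eq N U (hs (piU N U g))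
  have h2 := hc (s (piU N U g)) (s (piU N U h)) ((s (piU N U g))⁻¹ * g) h1
  rw [mul_inv_cancel_left] at h2
  have h3 := piU_eq N U (hs (piU N U h))
  have h4 := hc' g (s (piU N U h)) ((s (piU N U h))⁻¹ * h) h3
  rw [mul_inv_cancel_left] at h4
  rw [← h2, ← h4]

theorem desc_Z1 {c : U → A} {c' : PU N U → fix A N}
    (h : ∀ g, ((c' (piU N U g) : fix A N) : A) = c g) (hc : c ∈ Z1 U A) :
    c' ∈ Z1 (PU N U) (fix A N) := by
  intro y z
  obtain ⟨g, rfl⟩ := piU_surj N U y
  obtain ⟨k, rfl⟩ := piU_surj N U z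
  apply Subtype.ext
  rw [← map_mul, h, AddSubgroup.coe_add, piU_smul, h, h]
  exact hc g k

theorem desc_Z2 {c : U → U → A} {c' : PU N U → PU N U → fix A N}
    (h : ∀ g k, ((c' (piU N U g) (piU N U k) : fix A N) : A) = c g k) (hc : c ∈ Z2 U A) :
    c' ∈ Z2 (PU N U) (fix A N) := by
  intro y z w
  obtain ⟨g, rfl⟩ := piU_surj N U y
  obtain ⟨k, rfl⟩ := piU_surj N U z
  obtain ⟨l, rfl⟩ := piU_surj N U w
  apply Subtype.ext
  rw [← map_mul, ← map_mul, AddSubgroup.coe_add, AddSubgroup.coe_add, piU_smul, h, h, h, h]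
  exact hc g k l

theorem desc_B2 {b : U → A} {b' : PU N U → fix A N}
    (h : ∀ g, ((b' (piU N U g) : fix A N) : A) = b g) {c : U → U → A}
    {c' : PU N U → PU N U → fix A N}
    (hc : ∀ g k, ((c' (piU N U g) (piU N U k) : fix A N) : A) = c g k)
    (hb : ∀ g k, c g k = b g + g • b k - b (g * k)) :
    ∀ y z, c' y z = b' y + y • b' z - b' (y * z) := by
  intro y z
  obtain ⟨g, rfl⟩ := piU_surj N U y
  obtain ⟨k, rfl⟩ := piU_surj N U z
  apply Subtype.ext
  rw [← map_mul, AddSubgroup.coe_sub, AddSubgroup.coe_add, piU_smul, h, h, h, hc]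
  exact hb g k

variable [TopologicalSpace D] [IsTopologicalGroup D] [CompactSpace D]

theorem infl_B2l (hN : IsOpen (N : Set D)) {c : U → U → A}
    {c' : PU N U → PU N U → fix A N}
    (hc : ∀ g k, ((c' (piU N U g) (piU N U k) : fix A N) : A) = c g k)
    (hB : c' ∈ B2 (PU N U) (fix A N)) : c ∈ B2l U A := by
  obtain ⟨b', hb'⟩ := hB
  refine ⟨fun g => (b' (piU N U g) : A), ⟨N.subgroupOf U, hN.preimage continuous_subtype_val,
    fun g n hn => ?_⟩, fun g k => ?_⟩
  · have h1 : piU N U (g * n) = piU N U g := by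
      rw [map_mul]
      have : piU N U n = 1 := Subtype.ext ((QuotientGroup.eq_one_iff _).mpr hn)
      rw [this, mul_one]
    show ((b' (piU N U (g * n)) : fix A N) : A) = (b' (piU N U g) : A)
    rw [h1]
  · rw [← hc, hb', AddSubgroup.coe_sub, AddSubgroup.coe_add, piU_smul, ← map_mul]

omit [N.Normal] in
theorem lev1 {U : Subgroup D} (hU : IsOpen (U : Set D)) (hA : Disc D A) {b : U → A}
    (hb : LC1 b) : ∃ N₀ : Subgroup D, IsOpen (N₀ : Set D) ∧ N₀ ≤ U ∧
      (∀ g n : U, (n : D) ∈ N₀ → b (g * n) = b g) ∧ ∀ g, ∀ n ∈ N₀, n • b g = b g := by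
  haveI : CompactSpace U := isCompact_iff_compactSpace.mp (U.isClosed_of_isOpen hU).isCompact
  have hA' : Disc U A := by
    intro a
    obtain ⟨N, h1, h2⟩ := hA a
    exact ⟨N.subgroupOf U, h1.preimage continuous_subtype_val, fun n hn => h2 n hn⟩
  obtain ⟨N, -, h2, h3, h4⟩ := hb.exists_level hA'
  have hsub : ∀ n : U, (n : D) ∈ N.map U.subtype → n ∈ N := by
    rintro n ⟨y, hy, hyn⟩
    rwa [← Subtype.ext hyn]
  refine ⟨N.map U.subtype, ?_, ?_, fun g n hn => h3 g n (hsub n hn), ?_⟩
  · have := hU.isOpenMap_subtype_val _ h2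
    rwa [Subgroup.coe_map]
  · rintro _ ⟨y, -, rfl⟩; exact y.2
  · rintro g _ ⟨y, hy, rfl⟩
    exact h4 g y hy

omit [N.Normal] in
theorem lev2 {U : Subgroup D} (hU : IsOpen (U : Set D)) (hA : Disc D A) {x : U → U → A}
    (hx : LC2 x) : ∃ N₀ : Subgroup D, IsOpen (N₀ : Set D) ∧ N₀ ≤ U ∧
      (∀ g h n : U, (n : D) ∈ N₀ → x (g * n) h = x g h) ∧
      (∀ g h n : U, (n : D) ∈ N₀ → x g (h * n) = x g h) ∧ ∀ g h, ∀ n ∈ N₀, n • x g h = x g h := by
  haveI : CompactSpace U := isCompact_iff_compactSpace.mp (U.isClosed_of_isOpen hU).isCompact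
  have hA' : Disc U A := by
    intro a
    obtain ⟨N, h1, h2⟩ := hA a
    exact ⟨N.subgroupOf U, h1.preimage continuous_subtype_val, fun n hn => h2 n hn⟩
  obtain ⟨N, -, h2, h3⟩ := hx.exists_level hA'
  have hsub : ∀ n : U, (n : D) ∈ N.map U.subtype → n ∈ N := by
    rintro n ⟨y, hy, hyn⟩
    rwa [← Subtype.ext hyn]
  refine ⟨N.map U.subtype, ?_, ?_, fun g h n hn => h3.1 g h n (hsub n hn),
    fun g h n hn => h3.2.1 g h n (hsub n hn), ?_⟩
  · have := hU.isOpenMap_subtype_val _ h2
    rwa [Subgroup.coe_map]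
  · rintro _ ⟨y, -, rfl⟩; exact y.2
  · rintro g h _ ⟨y, hy, rfl⟩
    exact h3.2.2 g h y hy

end desc

section sub

variable {G : Type*} [Group G] {A : Type*} [AddCommGroup A] [DistribMulAction G A]

theorem Z1_sub (P : Subgroup G) (H : Subgroup P)
    (h : Z1 (H.map P.subtype) A ≤ B1 (H.map P.subtype) A) : Z1 H A ≤ B1 H A := by
  intro c hc
  let e : H ≃* H.map P.subtype := H.equivMapOfInjective P.subtype P.subtype_injective
  have he : ∀ x : H, ((e x : H.map P.subtype) : G) = ((x : P) : G) := fun _ => rfl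
  have h1 : (fun y => c (e.symm y)) ∈ Z1 (H.map P.subtype) A := by
    intro y z
    obtain ⟨y, rfl⟩ := e.surjective y
    obtain ⟨z, rfl⟩ := e.surjective z
    show c (e.symm (e y * e z)) = c (e.symm (e y)) + (e y) • c (e.symm (e z))
    rw [← map_mul, e.symm_apply_apply, e.symm_apply_apply, e.symm_apply_apply]
    exact hc y z
  obtain ⟨a, ha⟩ := h h1
  refine ⟨a, fun g => ?_⟩
  have h2 : c (e.symm (e g)) = (e g) • a - a := ha (e g)
  rw [e.symm_apply_apply] at h2
  exact h2

theorem cfLayer_sub {p : ℕ} {u : G → G → A} (h : CFLayer p G A u) (P : Subgroup G) :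
    CFLayer p P A (res2 P u) where
  mem := fun g k l => h.mem g k l
  h1 := fun H hH => Z1_sub P H (h.h1 _ (hH.map P.subtype))
  gen := by
    intro H hH x hx
    let e : H ≃* H.map P.subtype := H.equivMapOfInjective P.subtype P.subtype_injective
    obtain ⟨k, b, hb⟩ := h.gen (H.map P.subtype) (hH.map P.subtype)
      (fun y z => x (e.symm y) (e.symm z)) (by
        intro y z w
        obtain ⟨y, rfl⟩ := e.surjective y
        obtain ⟨z, rfl⟩ := e.surjective z
        obtain ⟨w, rfl⟩ := e.surjective w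
        show x (e.symm (e y)) (e.symm (e z)) + x (e.symm (e y * e z)) (e.symm (e w)) =
          (e y) • x (e.symm (e z)) (e.symm (e w)) + x (e.symm (e y)) (e.symm (e z * e w))
        rw [← map_mul, ← map_mul]
        simp only [e.symm_apply_apply]
        exact hx y z w)
    refine ⟨k, fun y => b (e y), fun y z => ?_⟩
    have := hb (e y) (e z)
    rw [← map_mul] at this
    simp only [Pi.sub_apply, e.symm_apply_apply] at this
    exact this
  ord := by
    rintro H hH k ⟨b, hb⟩
    let e : H ≃* H.map P.subtype := H.equivMapOfInjective P.subtype P.subtype_injective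
    have h1 := h.ord (H.map P.subtype) (hH.map P.subtype) k ⟨fun y => b (e.symm y), fun y z => by
      obtain ⟨y, rfl⟩ := e.surjective y
      obtain ⟨z, rfl⟩ := e.surjective z
      show (k • res2 (H.map P.subtype) u) (e y) (e z) =
        b (e.symm (e y)) + (e y) • b (e.symm (e z)) - b (e.symm (e y * e z))
      rw [← map_mul]
      simp only [e.symm_apply_apply]
      exact hb y z⟩
    rwa [Nat.card_congr e.toEquiv]

end sub

end

end Fermat.Agent.TWLocal
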