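import Fermat.Agent.TWLocal.LC
import Fermat.Agent.CFT.ClassForm
import Fermat.Agent.TWLocal.Alg

set_option autoImplicit false
set_option maxHeartbeats 400000
set_option linter.style.haveILetI false
set_option linter.unusedSectionVars false

/-! Local duality in degree two: devissage. -/

namespace Fermat.Agent.TWLocal

open Fermat.Agent.CFT

noncomputable section

/-- locally constant additive characters -/
def HomU (p : ℕ) (U : Type*) [Group U] [TopologicalSpace U] : AddSubgroup (U → ZMod p) where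
  carrier := {χ | (∀ g h, χ (g * h) = χ g + χ h) ∧ LC1 χ}
  zero_mem' := ⟨fun g h => by simp, LC1.const 0⟩
  add_mem' := fun ha hb => ⟨fun g h => by
    simp only [Pi.add_apply, ha.1 g h, hb.1 g h]; abel, ha.2.map₂ hb.2 (· + ·)⟩
  neg_mem' := fun ha => ⟨fun g h => by simp only [Pi.neg_apply, ha.1 g h]; abel, ha.2.comp (- ·)⟩

/-- the properties of a `p`-local field containing `μ_p`. -/
structure LocAx (p : ℕ) (U : Type*) [Group U] [TopologicalSpace U] {C : Type*}
    [AddCommGroup C] [DistribMulAction U C] (zh : ZMod p →+ C) : Prop where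
  disc : Disc U C
  div : ∀ c : C, ∃ c', p • c' = c
  inj : Function.Injective zh
  tors : ∀ c : C, p • c = 0 → ∃ t, zh t = c
  fixz : ∀ (g : U) t, g • zh t = zh t
  h90 : ∀ c : U → C, c ∈ Z1 U C → LC1 c → ∃ a, ∀ g, c g = g • a - a
  inv : ∃ I : T2l U C p →+ ZMod p, ∀ x, I x = 0 ↔ x.1 ∈ B2l U C
  norm : ∀ χ : U → ZMod p, (∀ g h, χ (g * h) = χ g + χ h) → LC1 χ → χ ≠ 0 →
    ∃ a : C, (∀ g : U, g • a = a) ∧ cup p (lft χ) a ∉ B2l U C
  fin : Finite (HomU p U)

section pairing

variable {p : ℕ} [hp : Fact p.Prime] {U : Type*} [Group U] [TopologicalSpace U]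
  [IsTopologicalGroup U] [CompactSpace U] {C : Type*}
  [AddCommGroup C] [DistribMulAction U C] {zh : ZMod p →+ C} (ax : LocAx p U zh)

theorem zh_mul (t s : ZMod p) : zh (t * s) = s.val • zh t := by
  rw [← map_nsmul]
  congr 1
  rw [nsmul_eq_mul, ZMod.natCast_zmod_val, mul_comm]

theorem p_zh (t : ZMod p) : p • zh t = 0 := by
  rw [← map_nsmul, nsmul_eq_mul, ZMod.natCast_self, zero_mul, map_zero]

/-- the cup product of two characters -/
def pcup (zh : ZMod p →+ C) (χ ω : U → ZMod p) : U → U → C := fun g h => zh (χ g * ω h)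

include ax in
theorem pcup_mem {χ ω : U → ZMod p} (hχ : χ ∈ HomU p U) (hω : ω ∈ HomU p U) :
    pcup zh χ ω ∈ T2l U C p := by
  refine ⟨⟨fun g h k => ?_, hχ.2.prod hω.2 (fun a b => zh (a * b))⟩, ?_⟩
  · show zh (χ g * ω h) + zh (χ (g * h) * ω k) = g • zh (χ h * ω k) + zh (χ g * ω (h * k))
    rw [ax.fixz, ← map_add, ← map_add, hχ.1, hω.1]
    congr 1; ring
  · have : p • pcup zh χ ω = 0 := by
      funext g h
      exact p_zh _
    rw [this]; exact (B2l U C).zero_mem

/-- divide a sum of three by `p` -/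
theorem cup_smul_eq {χ : U → ZMod p} (hχ : ∀ g h, χ (g * h) = χ g + χ h) (α : C) (g h : U) :
    ((χ g).val : ℤ) • α + ((χ h).val : ℤ) • α - ((χ (g * h)).val : ℤ) • α =
      cup p (lft χ) (p • α) g h := by
  obtain ⟨c, hc⟩ := lft_dvd χ hχ g h
  have hn : (p : ℤ) ≠ 0 := by exact_mod_cast hp.out.ne_zero
  show lft χ g • α + lft χ h • α - lft χ (g * h) • α = ((lft χ g + lft χ h - lft χ (g * h)) / (p : ℤ)) • p • α
  rw [hc, Int.mul_ediv_cancel_left _ hn, ← add_smul, ← sub_smul, hc, mul_comm, mul_smul,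
    natCast_zsmul]

include ax in
theorem exists_char {ω : U → ZMod p} (hω : ω ∈ HomU p U) (hω0 : ω ≠ 0) :
    ∃ χ ∈ HomU p U, pcup zh χ ω ∉ B2l U C := by
  obtain ⟨a, ha, hnc⟩ := ax.norm ω hω.1 hω.2 hω0
  obtain ⟨α, hα⟩ := ax.div a
  have h1 : ∀ g : U, ∃ t, zh t = g • α - α := by
    intro g
    apply ax.tors
    rw [smul_sub, smul_comm, hα, ha, sub_self]
  choose χ hχ using h1
  have hhom : ∀ g h, χ (g * h) = χ g + χ h := by
    intro g h
    apply ax.inj
    rw [map_add, hχ, hχ, hχ, mul_smul]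
    have : g • h • α - α = g • (h • α - α) + (g • α - α) := by rw [smul_sub]; abel
    rw [this, ← hχ h, ax.fixz, add_comm]
  have hlc : LC1 χ := by
    obtain ⟨N, hN1, hN2⟩ := ax.disc α
    refine ⟨N, hN1, fun g n hn => ?_⟩
    apply ax.inj
    rw [hχ, hχ, mul_smul, hN2 n hn]
  refine ⟨χ, ⟨hhom, hlc⟩, fun hB => hnc ?_⟩
  have h2 : cup p (lft ω) a = dd (fun g => ((ω g).val : ℤ) • α) - pcup zh χ ω := by
    funext g h
    rw [← hα, ← cup_smul_eq hω.1 α g h]
    show _ = ((ω g).val : ℤ) • α + g • (((ω h).val : ℤ) • α) - ((ω (g * h)).val : ℤ) • α -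
      zh (χ g * ω h)
    rw [zh_mul, hχ, smul_comm g, smul_sub, natCast_zsmul α (ω h).val, natCast_zsmul (g • α) (ω h).val]
    abel
  rw [h2]
  refine (B2l U C).sub_mem (dd_mem_B2l ?_) hB
  exact hω.2.comp (fun t => (t.val : ℤ) • α)

include ax in
theorem pcup_add_left (χ χ' ω : HomU p U) :
    (⟨pcup zh (χ + χ').1 ω.1, pcup_mem ax (χ + χ').2 ω.2⟩ : T2l U C p) =
      ⟨pcup zh χ.1 ω.1, pcup_mem ax χ.2 ω.2⟩ + ⟨pcup zh χ'.1 ω.1, pcup_mem ax χ'.2 ω.2⟩ := by
  apply Subtype.ext
  funext g h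
  show zh ((χ.1 g + χ'.1 g) * ω.1 h) = zh (χ.1 g * ω.1 h) + zh (χ'.1 g * ω.1 h)
  rw [← map_add, add_mul]

include ax in
/-- perfectness of the pairing of characters -/
theorem exists_pairing (I : T2l U C p →+ ZMod p) (hI : ∀ x, I x = 0 ↔ x.1 ∈ B2l U C)
    (L : HomU p U →+ ZMod p) :
    ∃ ω : HomU p U, ∀ χ : HomU p U, L χ = I ⟨pcup zh χ.1 ω.1, pcup_mem ax χ.2 ω.2⟩ := by
  classical
  haveI := ax.fin
  have hpV : ∀ x : HomU p U, p • x = 0 := fun x => by
    apply Subtype.ext
    funext g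
    show p • (x.1 g) = 0
    rw [nsmul_eq_mul, ZMod.natCast_self, zero_mul]
  let b : HomU p U → (HomU p U →+ ZMod p) := fun ω =>
    AddMonoidHom.mk' (fun χ => I ⟨pcup zh χ.1 ω.1, pcup_mem ax χ.2 ω.2⟩)
        (fun χ χ' => by rw [← map_add, pcup_add_left ax])
  have hb : ∀ ω χ, b ω χ = I ⟨pcup zh χ.1 ω.1, pcup_mem ax χ.2 ω.2⟩ := fun _ _ => rfl
  have hinj : Function.Injective b := by
    intro ω ω' h
    by_contra hne
    have h0 : (ω - ω').1 ≠ 0 := fun h => hne (sub_eq_zero.mp (Subtype.ext h))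
    obtain ⟨χ, hχ, hn⟩ := exists_char ax (ω - ω').2 h0
    apply hn
    have h1 := DFunLike.congr_fun h ⟨χ, hχ⟩
    rw [hb, hb, ← sub_eq_zero, ← map_sub, hI] at h1
    have h2 : pcup zh χ (ω - ω').1 = pcup zh χ ω.1 - pcup zh χ ω'.1 := by
      funext g h
      show zh (χ g * (ω.1 h - ω'.1 h)) = zh (χ g * ω.1 h) - zh (χ g * ω'.1 h)
      rw [← map_sub, mul_sub]
    rw [h2]
    exact h1
  obtain ⟨ω, hω⟩ := surj_of_inj_dual hpV b hinj le_rfl L
  exact ⟨ω, fun χ => by rw [← hω]; rfl⟩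

end pairing

section dev

variable {p : ℕ} [hp : Fact p.Prime] {U : Type*} [Group U] [TopologicalSpace U]
  [IsTopologicalGroup U] [CompactSpace U] {C : Type*}
  [AddCommGroup C] [DistribMulAction U C] {zh : ZMod p →+ C} (ax : LocAx p U zh)

include ax in
/-- classes in `H²(U, ℤ/p)` which die in `C` are trivial -/
theorem exists_lift_B2 {y : U → U → ZMod p} (hy : (fun g h => zh (y g h)) ∈ B2l U C) :
    ∃ β : U → ZMod p, LC1 β ∧ ∀ g h, y g h = β g + β h - β (g * h) := by
  obtain ⟨b, hb1, hb2⟩ := hy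
  have hz : (fun g => p • b g) ∈ Z1 U C := by
    intro g h
    have h1 := congrArg (p • ·) (hb2 g h)
    simp only [p_zh, smul_sub, smul_add] at h1
    show p • b (g * h) = p • b g + g • p • b h
    rw [smul_comm g]
    exact (sub_eq_zero.mp h1.symm).symm
  obtain ⟨a, ha⟩ := ax.h90 _ hz (hb1.comp (p • ·))
  obtain ⟨a', ha'⟩ := ax.div a
  have h1 : ∀ g : U, ∃ t, zh t = b g - (g • a' - a') := by
    intro g
    apply ax.tors
    rw [smul_sub, ha g, smul_sub, smul_comm p g, ha', sub_self]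
  choose β hβ using h1
  refine ⟨β, ?_, fun g h => ?_⟩
  · have h2 : LC1 (fun g : U => b g - (g • a' - a')) := by
      obtain ⟨N, hN1, hN2⟩ := ax.disc a'
      exact hb1.map₂ (f' := fun g : U => g • a' - a') ⟨N, hN1, fun g n hn => by
        beta_reduce
        rw [mul_smul, hN2 n hn]⟩ (· - ·)
    obtain ⟨N, hN1, hN2⟩ := h2
    exact ⟨N, hN1, fun g n hn => ax.inj (by rw [hβ, hβ]; exact hN2 g n hn)⟩
  · apply ax.inj
    have h3 : zh (y g h) = b g + g • b h - b (g * h) := hb2 g h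
    rw [map_sub, map_add, hβ g, hβ (g * h), ← ax.fixz g (β h), hβ h, h3, smul_sub, smul_sub,
      mul_smul]
    abel

/-- the action on a kernel -/
@[reducible] def kerAct {M : Type*} [AddCommGroup M] [DistribMulAction U M] (φ : M →+ ZMod p)
    (hφ : ∀ (g : U) m, φ (g • m) = φ m) : DistribMulAction U φ.ker where
  smul g m := ⟨g • m.1, by rw [AddMonoidHom.mem_ker, hφ]; exact m.2⟩
  one_smul m := Subtype.ext (one_smul U m.1)
  mul_smul g h m := Subtype.ext (mul_smul g h m.1)
  smul_zero g := Subtype.ext (smul_zero g)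
  smul_add g a b := Subtype.ext (smul_add g a.1 b.1)

/-- the scalar homomorphism of an element killed by `p` -/
def mh {M : Type*} [AddCommGroup M] (m₀ : M) (h : p • m₀ = 0) : ZMod p →+ M :=
  AddMonoidHom.mk' (fun t => t.val • m₀) (fun t s => by
    rw [← add_smul, ZMod.val_add]
    conv_rhs => rw [← Nat.mod_add_div (t.val + s.val) p, add_smul, mul_comm p, mul_smul, h,
      smul_zero, add_zero])

theorem mh_apply {M : Type*} [AddCommGroup M] (m₀ : M) (h : p • m₀ = 0) (t : ZMod p) :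
    mh m₀ h t = t.val • m₀ := rfl

theorem exists_inv_functional {M : Type*} [AddCommGroup M] [DistribMulAction U M] [Finite M]
    [Nontrivial M] (hpM : ∀ m : M, p • m = 0) {N : Subgroup U} [N.Normal]
    (hN : ∀ n ∈ N, ∀ m : M, n • m = m) (hP : IsPGroup p (U ⧸ N)) :
    ∃ φ : M →+ ZMod p, φ ≠ 0 ∧ ∀ (g : U) m, φ (g • m) = φ m := by
  classical
  haveI : Finite (M →+ ZMod p) := DFunLike.finite _
  letI act0 : MulAction U (M →+ ZMod p) :=
    { smul := fun g φ => φ.comp (DistribSMul.toAddMonoidHom M g⁻¹)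
      one_smul := fun φ => by
        ext m
        show φ ((1 : U)⁻¹ • m) = φ m
        rw [inv_one, one_smul]
      mul_smul := fun g h φ => by
        ext m
        show φ ((g * h)⁻¹ • m) = φ (h⁻¹ • g⁻¹ • m)
        rw [mul_inv_rev, mul_smul] }
  have hact : ∀ (g : U) (φ : M →+ ZMod p) m, (g • φ) m = φ (g⁻¹ • m) := fun _ _ _ => rfl
  letI act : MulAction (U ⧸ N) (M →+ ZMod p) :=
    { smul := fun q φ => Quotient.liftOn' q (fun g => g • φ) (by
        intro g h hgh
        have h1 : g⁻¹ * h ∈ N := QuotientGroup.leftRel_apply.mp hgh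
        ext m
        rw [hact, hact]
        congr 1
        have h2 := hN _ h1 (h⁻¹ • m)
        rw [mul_smul, smul_inv_smul] at h2
        exact h2)
      one_smul := fun φ => one_smul U φ
      mul_smul := fun q r φ => by
        induction q using QuotientGroup.induction_on with
        | H g => induction r using QuotientGroup.induction_on with
          | H h => exact mul_smul g h φ }
  have hdvd : p ∣ Nat.card (M →+ ZMod p) := by
    rw [card_hom_zmod hpM]
    obtain ⟨m, hm⟩ := exists_ne (0 : M)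
    have h2 : addOrderOf m = p := addOrderOf_eq_prime (hpM m) hm
    rw [← h2]
    exact addOrderOf_dvd_natCard m
  obtain ⟨φ, hφ, hne⟩ := hP.exists_fixed_point_of_prime_dvd_card_of_fixed_point
    (M →+ ZMod p) hdvd (a := 0) (by
      rw [MulAction.mem_fixedPoints]
      intro q
      induction q using QuotientGroup.induction_on with
      | H g => ext m; show (g • (0 : M →+ ZMod p)) m = 0; rw [hact]; rfl)
  refine ⟨φ, hne.symm, fun g m => ?_⟩
  rw [MulAction.mem_fixedPoints] at hφ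
  have h1 := DFunLike.congr_fun (hφ (QuotientGroup.mk g⁻¹)) m
  have h2 : (g⁻¹ • φ) m = φ m := h1
  rw [hact, inv_inv] at h2
  exact h2

end dev

end

end Fermat.Agent.TWLocal
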