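import Fermat.Agent.EqDir.Higman

set_option autoImplicit false
set_option maxHeartbeats 400000
set_option linter.style.haveILetI false
set_option linter.unusedSectionVars false

/-! Counting homomorphisms from projective modules. -/

namespace Fermat.Agent.TWLocal

open Fermat.Agent.CFT Fermat.Agent.EqDir

noncomputable section

variable {G : Type*} [Group G]

/-- the action on a quotient -/
@[reducible] def quotDMA {A : Type*} [AddCommGroup A] [DistribMulAction G A] (S : AddSubgroup A)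
    (h : ∀ g : G, ∀ a ∈ S, g • a ∈ S) : DistribMulAction G (A ⧸ S) where
  smul g := QuotientAddGroup.map S S (DistribSMul.toAddMonoidHom A g) (fun a ha => h g a ha)
  one_smul x := by
    induction x using QuotientAddGroup.induction_on with
    | H a => exact congrArg _ (one_smul G a)
  mul_smul g k x := by
    induction x using QuotientAddGroup.induction_on with
    | H a => exact congrArg _ (mul_smul g k a)
  smul_zero g := map_zero _
  smul_add g := map_add _

theorem isPr_of_coprime [Fintype G] {p : ℕ} [hp : Fact p.Prime] (hG : (Fintype.card G).Coprime p)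
    {X : Type*} [AddCommGroup X] [DistribMulAction G X] [Finite X] (hX : ∀ x : X, p • x = 0) :
    IsPr G p X := by
  obtain ⟨c, hc⟩ := exists_inverse (p := p) hG
  refine IsHig.isPr hX ⟨c • AddMonoidHom.id X, fun x => ?_⟩
  have h1 : ∀ g : G, g • (c • AddMonoidHom.id X) (g⁻¹ • x) = c • x := by
    intro g
    show g • c • g⁻¹ • x = c • x
    rw [smul_comm g c, smul_inv_smul]
  rw [Finset.sum_congr rfl fun g _ => h1 g, Finset.sum_const, Finset.card_univ, smul_comm,
    hc X hX]

theorem hom_count [Fintype G] {p : ℕ} [hp : Fact p.Prime]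
    {X : Type*} [AddCommGroup X] [DistribMulAction G X] (hX : IsPr G p X)
    {A N WA WN MA : Type*} [AddCommGroup A] [DistribMulAction G A] [AddCommGroup N]
    [DistribMulAction G N] [AddCommGroup WA] [DistribMulAction G WA] [AddCommGroup WN]
    [DistribMulAction G WN] [AddCommGroup MA] [DistribMulAction G MA] [Finite WN] [Finite MA]
    (j : N →+ A) (hj : Function.Injective j) (hjG : ∀ (g : G) n, j (g • n) = g • j n)
    (hjf : j.range.index ≠ 0) (hN : ∀ n : N, p • n = 0 → n = 0)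
    (πA : A →+ WA) (hA1 : Function.Surjective πA) (hA2 : ∀ (g : G) a, πA (g • a) = g • πA a)
    (hA3 : ∀ a, πA a = 0 ↔ ∃ b, a = p • b)
    (πN : N →+ WN) (hN1 : Function.Surjective πN) (hN2 : ∀ (g : G) a, πN (g • a) = g • πN a)
    (hN3 : ∀ a, πN a = 0 ↔ ∃ b, a = p • b)
    (i : MA →+ A) (hi : Function.Injective i) (hiG : ∀ (g : G) x, i (g • x) = g • i x)
    (hir : ∀ u, p • u = 0 ↔ ∃ x, i x = u) :
    Nat.card (HomG G X WA) = Nat.card (HomG G X MA) * Nat.card (HomG G X WN) := by
  classical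
  obtain ⟨m, s, r, hs, hr, hrs⟩ := hX
  let S : AddSubgroup A := ((mulN A p).comp j).range
  have hS : ∀ a, a ∈ S ↔ ∃ n, p • j n = a := fun _ => Iff.rfl
  have hSG : ∀ g : G, ∀ a ∈ S, g • a ∈ S := by
    rintro g a ⟨n, hn⟩
    refine ⟨g • n, ?_⟩
    show p • j (g • n) = g • a
    rw [hjG, ← hn]
    exact smul_comm p g (j n)
  letI := quotDMA S hSG
  have hmk : ∀ (g : G) (a : A), (QuotientAddGroup.mk (g • a) : A ⧸ S) =
      g • (QuotientAddGroup.mk a : A ⧸ S) := fun _ _ => rfl
  have hWA : ∀ a : WA, p • a = 0 := by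
    intro a
    obtain ⟨u, rfl⟩ := hA1 a
    rw [← map_nsmul]
    exact (hA3 _).mpr ⟨u, rfl⟩
  have hWN : ∀ a : WN, p • a = 0 := by
    intro a
    obtain ⟨u, rfl⟩ := hN1 a
    rw [← map_nsmul]
    exact (hN3 _).mpr ⟨u, rfl⟩
  have hMA : ∀ a : MA, p • a = 0 := by
    intro a
    apply hi
    rw [map_nsmul, map_zero]
    exact (hir _).mpr ⟨a, rfl⟩
  choose σ hσ using hN1
  have hσ' : ∀ n, ∃ n', σ (πN n) = n + p • n' := by
    intro n
    obtain ⟨b, hb⟩ := (hN3 (σ (πN n) - n)).mp (by rw [map_sub, hσ, sub_self])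
    exact ⟨b, by rw [← hb]; abel⟩
  have hmkp : ∀ n, (QuotientAddGroup.mk (j (p • n)) : A ⧸ S) = 0 := by
    intro n
    rw [QuotientAddGroup.eq_zero_iff, hS, map_nsmul]
    exact ⟨n, rfl⟩
  haveI : Finite (A ⧸ j.range) := by
    haveI : j.range.FiniteIndex := ⟨hjf⟩
    exact AddSubgroup.finite_quotient_of_finiteIndex
  haveI hF : Finite (A ⧸ S) := by
    refine Finite.of_surjective (fun x : (A ⧸ j.range) × WN =>
      (QuotientAddGroup.mk (x.1.out + j (σ x.2)) : A ⧸ S)) ?_
    intro y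
    obtain ⟨a, rfl⟩ := QuotientAddGroup.mk_surjective y
    have h1 : (QuotientAddGroup.mk a : A ⧸ j.range) =
        QuotientAddGroup.mk (QuotientAddGroup.mk a : A ⧸ j.range).out := by
      exact (Quotient.out_eq _).symm
    rw [← sub_eq_zero, ← QuotientAddGroup.mk_sub, QuotientAddGroup.eq_zero_iff] at h1
    obtain ⟨n, hn⟩ := h1
    obtain ⟨n', hn'⟩ := hσ' n
    refine ⟨(QuotientAddGroup.mk a, πN n), ?_⟩
    show (QuotientAddGroup.mk ((QuotientAddGroup.mk a : A ⧸ j.range).out + j (σ (πN n))) : A ⧸ S)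
      = QuotientAddGroup.mk a
    rw [hn', map_add, ← add_assoc, QuotientAddGroup.mk_add, hmkp, add_zero, hn]
    congr 1; abel
  let πF : A →+ A ⧸ S := QuotientAddGroup.mk' S
  haveI : Finite WA := by
    refine Finite.of_surjective (QuotientAddGroup.lift S πA ?_) ?_
    · rintro a ⟨n, hn⟩
      exact (hA3 a).mpr ⟨j n, hn.symm⟩
    · intro w
      obtain ⟨a, rfl⟩ := hA1 w
      exact ⟨QuotientAddGroup.mk a, rfl⟩
  let ψ : WN →+ A ⧸ S := AddMonoidHom.mk' (fun w => QuotientAddGroup.mk (j (σ w))) (fun w w' => by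
    obtain ⟨b, hb⟩ := (hN3 (σ (w + w') - (σ w + σ w'))).mp (by
      rw [map_sub, map_add, hσ, hσ, hσ, sub_self])
    have h1 : σ (w + w') = σ w + σ w' + p • b := by rw [← hb]; abel
    rw [h1, map_add, map_add, QuotientAddGroup.mk_add, hmkp, add_zero, QuotientAddGroup.mk_add])
  have hψ : ∀ n, ψ (πN n) = QuotientAddGroup.mk (j n) := by
    intro n
    obtain ⟨n', hn'⟩ := hσ' n
    show (QuotientAddGroup.mk (j (σ (πN n))) : A ⧸ S) = _
    rw [hn', map_add, QuotientAddGroup.mk_add, hmkp, add_zero]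
  let φ : MA × WN →+ A ⧸ S := (πF.comp i).coprod ψ
  have hφ : ∀ m w, φ (m, w) = QuotientAddGroup.mk (i m) + ψ w := fun _ _ => rfl
  set e := s.comp r with he
  have hE : AppI p (matE e) := appI_matE e
    (fun g f => by show s (r (g • f)) = g • s (r f); rw [hr, hs])
    (fun f => by show s (r (s (r f))) = s (r f); rw [hrs])
  have e1 : EC A p (matE e) = EC WA p (matE e) := by
    refine EC_congr πA hA2 (fun b => ?_) (fun a c h => ?_)
    · obtain ⟨u, rfl⟩ := hA1 b
      exact ⟨u, 0, by rw [smul_zero, add_zero]⟩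
    · rw [hWA] at h
      exact (hA3 a).mp h
  have e2 : EC A p (matE e) = EC (A ⧸ S) p (matE e) := by
    refine EC_congr πF (fun g a => rfl) (fun b => ?_) (fun a c h => ?_)
    · obtain ⟨u, rfl⟩ := QuotientAddGroup.mk_surjective b
      exact ⟨u, 0, by rw [smul_zero, add_zero]; rfl⟩
    · obtain ⟨c, rfl⟩ := QuotientAddGroup.mk_surjective c
      have h1 : (QuotientAddGroup.mk a : A ⧸ S) = QuotientAddGroup.mk (p • c) := h
      rw [← sub_eq_zero, ← QuotientAddGroup.mk_sub, QuotientAddGroup.eq_zero_iff] at h1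
      obtain ⟨n, hn⟩ := h1
      refine ⟨c + j n, ?_⟩
      have h2 : p • j n = a - p • c := hn
      rw [smul_add, h2]; abel
  have e3 : EK (MA × WN) p (matE e) = EK (A ⧸ S) p (matE e) := by
    refine EK_congr φ ?_ ?_ ?_
    · rintro g ⟨m, w⟩
      obtain ⟨n, rfl⟩ : ∃ n, πN n = w := ⟨σ w, hσ w⟩
      show φ (g • m, g • πN n) = g • φ (m, πN n)
      rw [hφ, hφ, ← hN2, hψ, hψ, hiG, hjG, hmk, hmk, smul_add]
    · rintro ⟨m, w⟩ - h
      rw [hφ] at h
      obtain ⟨n, rfl⟩ : ∃ n, πN n = w := ⟨σ w, hσ w⟩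
      rw [hψ, ← QuotientAddGroup.mk_add, QuotientAddGroup.eq_zero_iff] at h
      obtain ⟨n', hn'⟩ := h
      have h1 : p • j n' = i m + j n := hn'
      have h2 : i m = j (p • n' - n) := by
        rw [map_sub, map_nsmul, h1]; abel
      have h3 : p • n' - n = 0 := by
        apply hN
        apply hj
        rw [map_nsmul, ← h2, map_zero]
        exact (hir _).mpr ⟨m, rfl⟩
      have h4 : m = 0 := by
        apply hi
        rw [h2, h3, map_zero, map_zero]
      have h5 : πN n = 0 := (hN3 n).mpr ⟨n', (sub_eq_zero.mp h3).symm⟩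
      rw [h4, h5]; rfl
    · intro b hb
      obtain ⟨a, rfl⟩ := QuotientAddGroup.mk_surjective b
      rw [← QuotientAddGroup.mk_nsmul, QuotientAddGroup.eq_zero_iff] at hb
      obtain ⟨n, hn⟩ := hb
      have h1 : p • j n = p • a := hn
      obtain ⟨m, hm⟩ := (hir (a - j n)).mp (by rw [smul_sub, h1, sub_self])
      refine ⟨(m, πN n), Prod.ext (hMA m) (hWN _), ?_⟩
      rw [hφ, hψ, hm, ← QuotientAddGroup.mk_add, sub_add_cancel]
  rw [card_HomG s r hs hr hrs hWA, card_HomG s r hs hr hrs hMA, card_HomG s r hs hr hrs hWN,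
    ← EK_prod, ← he, e3, ← EC_eq_EK_of_finite (A := A ⧸ S) hE, ← e2, e1,
    EC_eq_EK_of_finite (A := WA) hE]

end

end Fermat.Agent.TWLocal
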