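import Fermat.Agent.TWLocal.Dev2
import Fermat.Agent.TWLocal.Cor

set_option autoImplicit false
set_option maxHeartbeats 400000
set_option linter.style.haveILetI false
set_option linter.unusedSectionVars false

/-! Local duality in degree two for arbitrary finite modules. -/

namespace Fermat.Agent.TWLocal

open Fermat.Agent.CFT Finset

noncomputable section

universe u v w

theorem mem_of_coprime_nsmul' {A : Type*} [AddCommGroup A] (W : AddSubgroup A) {m p : ℕ}
    (h : m.Coprime p) {a : A} (h1 : m • a ∈ W) (h2 : p • a ∈ W) : a ∈ W := by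
  obtain ⟨x, y, hxy⟩ := Nat.isCoprime_iff_coprime.mpr h
  have h3 : a = x • (m • a) + y • (p • a) := by
    rw [← natCast_zsmul a m, ← natCast_zsmul a p, ← mul_smul, ← mul_smul, ← add_smul, hxy,
      one_smul]
  rw [h3]
  exact W.add_mem (W.zsmul_mem h1 _) (W.zsmul_mem h2 _)

section res

variable {G : Type*} [Group G] [TopologicalSpace G] {A : Type*} [AddCommGroup A]
  [DistribMulAction G A] (U : Subgroup G)

theorem res_LC1 {X : Type*} {f : G → X} (h : LC1 f) : LC1 (fun g : U => f g) := by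
  obtain ⟨N, h1, h2⟩ := h
  exact ⟨N.subgroupOf U, h1.preimage continuous_subtype_val, fun g n hn => h2 g n hn⟩

theorem res_LC2 {X : Type*} {f : G → G → X} (h : LC2 f) : LC2 (fun g h : U => f g h) := by
  obtain ⟨N, h1, h2⟩ := h
  exact ⟨N.subgroupOf U, h1.preimage continuous_subtype_val, fun g g' n hn n' hn' =>
    h2 g g' n hn n' hn'⟩

theorem res_Z2l {x : G → G → A} (hx : x ∈ Z2l G A) : (fun g h : U => x g h) ∈ Z2l U A :=
  ⟨fun g h k => hx.1 g h k, res_LC2 U hx.2⟩

theorem res_B2l {x : G → G → A} (hx : x ∈ B2l G A) : (fun g h : U => x g h) ∈ B2l U A := by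
  obtain ⟨b, h1, h2⟩ := hx
  exact ⟨fun g => b g, res_LC1 U h1, fun g h => h2 g h⟩

end res

variable {p : ℕ} [hp : Fact p.Prime] {G : Type u} [Group G] [TopologicalSpace G]
  [IsTopologicalGroup G] [CompactSpace G] {C : Type v}
  [AddCommGroup C] [DistribMulAction G C]

/-- the properties of the absolute Galois group of a local field -/
structure GlobAx (p : ℕ) (G : Type*) [Group G] [TopologicalSpace G] {C : Type*}
    [AddCommGroup C] [DistribMulAction G C] (zh : ZMod p →+ C) : Prop where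
  disc : Disc G C
  inj : Function.Injective zh
  tors : ∀ c : C, p • c = 0 → ∃ t, zh t = c
  loc : ∀ U : Subgroup G, IsOpen (U : Set G) → (∀ g ∈ U, ∀ t, g • zh t = zh t) → LocAx p U zh
  ex : ∃ w ∈ Z2l G C, p • w ∈ B2l G C ∧ w ∉ B2l G C

variable {zh : ZMod p →+ C} (ax : GlobAx p G zh)

include ax in
theorem fix_zeta {V₀ : Subgroup G} [V₀.Normal] (hV : ∀ g ∈ V₀, ∀ t, g • zh t = zh t)
    {P : Subgroup (G ⧸ V₀)} (hP : IsPGroup p P) :
    ∀ g ∈ P.comap (QuotientGroup.mk' V₀), ∀ t, g • zh t = zh t := by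
  have h1 : ∀ g : G, ∃ t, zh t = g • zh 1 := by
    intro g
    apply ax.tors
    rw [smul_comm, p_zh, smul_zero]
  choose c hc using h1
  have hc' : ∀ (g : G) (t : ZMod p), g • zh t = zh (c g * t) := by
    intro g t
    have h2 : zh t = t.val • zh 1 := by rw [← zh_mul, one_mul]
    rw [h2, smul_comm, ← hc, zh_mul]
  have hc1 : c 1 = 1 := by
    apply ax.inj
    rw [hc, one_smul]
  have hcm : ∀ g h, c (g * h) = c g * c h := by
    intro g h
    apply ax.inj
    rw [hc, mul_smul, ← hc h, hc']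
  have hcp : ∀ (g : G) (n : ℕ), c (g ^ n) = c g ^ n := by
    intro g n
    induction n with
    | zero => rw [pow_zero, pow_zero, hc1]
    | succ n ih => rw [pow_succ, hcm, ih, pow_succ]
  intro g hg t
  obtain ⟨k, hk⟩ := hP ⟨_, hg⟩
  have h2 : g ^ p ^ k ∈ V₀ := by
    have h3 : (QuotientGroup.mk' V₀ g) ^ p ^ k = 1 := congrArg Subtype.val hk
    rw [← map_pow] at h3
    exact (QuotientGroup.eq_one_iff _).mp h3
  have h3 : c (g ^ p ^ k) = 1 := by
    apply ax.inj
    rw [hc, hV _ h2]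
  rw [hcp, ZMod.pow_card_pow] at h3
  rw [hc', h3, one_mul]

include ax in
theorem push_U {M : Type w} [AddCommGroup M] [DistribMulAction G M] [Finite M]
    (hpM : ∀ m : M, p • m = 0) (hsm : Sm G M) (x : G → G → M) (hx : x ∈ Z2l G M)
    (hφ : ∀ φ : M →+ C, (∀ (g : G) m, φ (g • m) = g • φ m) → (fun g h => φ (x g h)) ∈ B2l G C)
    (U : Subgroup G) (hU : IsOpen (U : Set G)) (hUz : ∀ g ∈ U, ∀ t, g • zh t = zh t)
    (hUi : ¬ p ∣ U.index) (φ : M →+ C) (he : ∀ g ∈ U, ∀ m, φ (g • m) = g • φ m) :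
    (fun g h : U => φ (x g h)) ∈ B2l U C := by
  classical
  haveI := open_finiteIndex hU
  haveI : Finite (G ⧸ U) := Subgroup.finite_quotient_of_finiteIndex
  haveI : Fintype (G ⧸ U) := Fintype.ofFinite _
  have hcop : U.index.Coprime p := ((Nat.Prime.coprime_iff_not_dvd hp.out).mpr hUi).symm
  obtain ⟨w, hw1, hw2, hw3⟩ := ax.ex
  have lax := ax.loc U hU hUz
  obtain ⟨I, hI⟩ := lax.inv
  have hwT : (fun g h : U => w g h) ∈ T2l U C p := by
    refine ⟨res_Z2l U hw1, ?_⟩
    exact res_B2l U hw2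
  have hyT : (fun g h : U => φ (x g h)) ∈ T2l U C p := by
    refine ⟨⟨fun g h k => ?_, (res_LC2 U hx.2).comp φ⟩, ?_⟩
    · show φ (x g h) + φ (x (g * h) k) = (g : G) • φ (x h k) + φ (x g (h * k))
      rw [← he g g.2, ← map_add, ← map_add]
      exact congrArg φ (hx.1 g h k)
    · have : p • (fun g h : U => φ (x g h)) = 0 := by
        funext g h
        show p • φ (x g h) = 0
        rw [← map_nsmul, hpM, map_zero]
      rw [this]; exact (B2l U C).zero_mem
  have hw0 : I ⟨_, hwT⟩ ≠ 0 := by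
    intro h0
    rw [hI] at h0
    have h1 := cor_tr ax.disc ax.disc U hU hw1 (AddMonoidHom.id C) (fun d _ a => rfl) h0
    apply hw3
    apply mem_of_coprime_nsmul' _ hcop _ hw2
    have h2 : U.index • w = fun g h => trH U (AddMonoidHom.id C) (w g h) := by
      funext g h
      rw [trH_of_equi (fun d a => rfl)]; rfl
    rw [h2]; exact h1
  set t := I ⟨_, hyT⟩ * (I ⟨_, hwT⟩)⁻¹ with ht
  have hk : I (⟨_, hyT⟩ - t.val • ⟨_, hwT⟩) = 0 := by
    rw [map_sub, map_nsmul, nsmul_eq_mul, ZMod.natCast_zmod_val, ht, mul_assoc,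
      inv_mul_cancel₀ hw0, mul_one, sub_self]
  rw [hI] at hk
  -- the combined module
  let Φ : M × C →+ C := φ.comp (AddMonoidHom.fst M C) - t.val • AddMonoidHom.snd M C
  have hΦ : ∀ m c, Φ (m, c) = φ m - t.val • c := fun _ _ => rfl
  have hdM : Disc G (M × C) := by
    rintro ⟨m, c⟩
    obtain ⟨N, h1, h2⟩ := hsm.disc m
    obtain ⟨N', h1', h2'⟩ := ax.disc c
    exact ⟨N ⊓ N', open_inf h1 h1', fun n hn => Prod.ext (h2 n hn.1) (h2' n hn.2)⟩
  have hxw : (fun g h => ((x g h, w g h) : M × C)) ∈ Z2l G (M × C) :=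
    ⟨fun g h k => Prod.ext (hx.1 g h k) (hw1.1 g h k), hx.2.map₂ hw1.2 Prod.mk⟩
  have h1 := cor_tr hdM ax.disc U hU hxw Φ (by
    rintro d hd ⟨m, c⟩
    show φ (d • m) - t.val • d • c = d • (φ m - t.val • c)
    rw [he d hd, smul_sub, smul_comm d]) hk
  have h2 : ∀ m c, trH U Φ (m, c) = trH U φ m - (t.val * U.index) • c := by
    intro m c
    rw [trH_apply, trH_apply]
    have h3 : ∀ s : G ⧸ U, s.out • Φ ((s.out)⁻¹ • (m, c)) =
        s.out • φ ((s.out)⁻¹ • m) - t.val • c := by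
      intro s
      show s.out • (φ ((s.out)⁻¹ • m) - t.val • (s.out)⁻¹ • c) = _
      rw [smul_sub, smul_comm (s.out) t.val, smul_inv_smul]
    rw [sum_congr rfl fun s _ => h3 s, sum_sub_distrib, sum_const, card_univ, smul_smul,
      ← Nat.card_eq_fintype_card, mul_comm]
    rfl
  have h3 : (t.val * U.index) • w ∈ B2l G C := by
    have h4 := hφ (trH U φ) (fun g m => trH_smul he g m)
    have h5 := (B2l G C).sub_mem h4 h1
    have h6 : (t.val * U.index) • w = (fun g h => trH U φ (x g h)) -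
        (fun g h => trH U Φ (x g h, w g h)) := by
      funext g h
      show (t.val * U.index) • w g h = trH U φ (x g h) - trH U Φ (x g h, w g h)
      rw [h2]; abel
    rw [h6]; exact h5
  have h4 : p ∣ t.val * U.index := by
    by_contra hn
    exact hw3 (mem_of_coprime_nsmul' _ ((Nat.Prime.coprime_iff_not_dvd hp.out).mpr hn).symm h3 hw2)
  have h5 : t = 0 := by
    rcases hp.out.dvd_mul.mp h4 with h | h
    · rw [← ZMod.natCast_zmod_val t, (ZMod.natCast_eq_zero_iff _ _).mpr h]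
    · exact absurd h hUi
  have h6 : I ⟨_, hyT⟩ = 0 := by
    rw [ht, mul_eq_zero] at h5
    exact h5.resolve_right (inv_ne_zero hw0)
  exact (hI _).mp h6

include ax in
/-- **local duality in degree two**, injectivity -/
theorem glob {M : Type w} [AddCommGroup M] [DistribMulAction G M] [Finite M]
    (hpM : ∀ m : M, p • m = 0) (hsm : Sm G M) (x : G → G → M) (hx : x ∈ Z2l G M)
    (hφ : ∀ φ : M →+ C, (∀ (g : G) m, φ (g • m) = g • φ m) → (fun g h => φ (x g h)) ∈ B2l G C) :
    x ∈ B2l G M := by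
  classical
  obtain ⟨NM, hNM1, hNM2⟩ := hsm
  obtain ⟨Nz, hNz1, hNz2⟩ := ax.disc (zh 1)
  obtain ⟨V₀, hV1, hV2, hV3⟩ := exists_normal_le (open_inf hNM1 hNz1)
  have hVz : ∀ g ∈ V₀, ∀ t, g • zh t = zh t := by
    intro g hg t
    have h2 : zh t = t.val • zh 1 := by rw [← zh_mul, one_mul]
    rw [h2, smul_comm, hNz2 g (hV3 hg).2]
  haveI := Subgroup.quotient_finite_of_isOpen V₀ hV2
  obtain ⟨P⟩ := (inferInstance : Nonempty (Sylow p (G ⧸ V₀)))
  have hPp : IsPGroup p (P : Subgroup (G ⧸ V₀)) := P.isPGroup'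
  obtain ⟨U, hUdef⟩ : ∃ U, U = (P : Subgroup (G ⧸ V₀)).comap (QuotientGroup.mk' V₀) := ⟨_, rfl⟩
  have hVU : V₀ ≤ U := by
    intro g hg
    rw [hUdef, Subgroup.mem_comap]
    rw [show QuotientGroup.mk' V₀ g = 1 from (QuotientGroup.eq_one_iff g).mpr hg]
    exact (P : Subgroup (G ⧸ V₀)).one_mem
  have hUo : IsOpen (U : Set G) := Subgroup.isOpen_mono hVU hV2
  have hUi : ¬ p ∣ U.index := by
    rw [hUdef, Subgroup.index_comap_of_surjective _ (QuotientGroup.mk'_surjective V₀)]
    exact P.not_dvd_index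
  have hUz : ∀ g ∈ U, ∀ t, g • zh t = zh t := by
    rw [hUdef]
    exact fix_zeta ax hVz hPp
  have hUm : ∀ g, g ∈ U → QuotientGroup.mk' V₀ g ∈ (P : Subgroup (G ⧸ V₀)) := by
    intro g hg
    rw [hUdef] at hg
    exact hg
  have lax := ax.loc U hUo hUz
  haveI : CompactSpace U := isCompact_iff_compactSpace.mp (U.isClosed_of_isOpen hUo).isCompact
  have hN : ∃ (N : Subgroup U) (_ : N.Normal), IsOpen (N : Set U) ∧ IsPGroup p (U ⧸ N) ∧
      ∀ n ∈ N, ∀ m : M, n • m = m := by
    refine ⟨V₀.subgroupOf U, inferInstance, hV2.preimage continuous_subtype_val, ?_,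
      fun n hn m => hNM2 n (hV3 hn).1 m⟩
    intro q
    induction q using QuotientGroup.induction_on with
    | H g =>
      have hg : QuotientGroup.mk' V₀ (g : G) ∈ (P : Subgroup (G ⧸ V₀)) := hUm _ g.2
      obtain ⟨k, hk⟩ := hPp ⟨_, hg⟩
      refine ⟨k, ?_⟩
      have h3 : (QuotientGroup.mk' V₀ (g : G)) ^ p ^ k = 1 := congrArg Subtype.val hk
      rw [← map_pow] at h3
      have h4 : (g : G) ^ p ^ k ∈ V₀ := (QuotientGroup.eq_one_iff _).mp h3
      rw [← QuotientGroup.mk_pow, QuotientGroup.eq_one_iff, Subgroup.mem_subgroupOf]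
      exact h4
  have h1 := dev_main lax (Nat.card M) M le_rfl hpM hN (fun g h : U => x g h) (res_Z2l U hx)
    (fun φ he => push_U ax hpM ⟨NM, hNM1, hNM2⟩ x hx hφ U hUo hUz hUi φ
      (fun g hg m => he ⟨g, hg⟩ m))
  haveI := open_finiteIndex hUo
  haveI : Finite (G ⧸ U) := Subgroup.finite_quotient_of_finiteIndex
  haveI : Fintype (G ⧸ U) := Fintype.ofFinite _
  have hdM : Disc G M := Sm.disc ⟨NM, hNM1, hNM2⟩
  have h2 := cor_tr hdM hdM U hUo hx (AddMonoidHom.id M) (fun d _ a => rfl) h1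
  have hcop : U.index.Coprime p := ((Nat.Prime.coprime_iff_not_dvd hp.out).mpr hUi).symm
  apply mem_of_coprime_nsmul' _ hcop
  · have h3 : U.index • x = fun g h => trH U (AddMonoidHom.id M) (x g h) := by
      funext g h
      rw [trH_of_equi (fun d a => rfl)]; rfl
    rw [h3]; exact h2
  · have : p • x = 0 := by
      funext g h
      exact hpM _
    rw [this]; exact (B2l G M).zero_mem

end

end Fermat.Agent.TWLocal
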