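import Fermat.Agent.TWLocal.Desc
import Fermat.Agent.CFTLocal.Main

set_option autoImplicit false
set_option maxHeartbeats 400000
set_option linter.style.haveILetI false
set_option linter.unusedSectionVars false

/-! The local duality axioms for `ℚ_q`. -/

namespace Fermat.Agent.TWLocal

open Fermat.Agent.CFT Fermat.Agent.CFTLocal Finset

noncomputable section

variable {q : ℕ} [hq : Fact q.Prime]

theorem disc_LM : Disc (LG q) (LM q) := by
  intro a
  have hfd : FiniteDimensional ℚ_[q] (IntermediateField.adjoin ℚ_[q] {el a}) :=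
    IntermediateField.adjoin.finiteDimensional (Algebra.IsIntegral.isIntegral _)
  refine ⟨(IntermediateField.adjoin ℚ_[q] {el a}).fixingSubgroup,
    IntermediateField.fixingSubgroup_isOpen _, fun n hn => ?_⟩
  apply el_injective
  rw [el_smul]
  exact (IntermediateField.mem_fixingSubgroup_iff _ _).mp hn _
    (IntermediateField.mem_adjoin_simple_self _ _)

theorem Disc.sub {D : Type*} [Group D] [TopologicalSpace D] {A : Type*} [AddCommGroup A]
    [DistribMulAction D A] (h : Disc D A) (U : Subgroup D) : Disc U A := by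
  intro a
  obtain ⟨N, h1, h2⟩ := h a
  exact ⟨N.subgroupOf U, h1.preimage continuous_subtype_val, fun n hn => h2 n hn⟩

theorem div_LM {p : ℕ} [hp : Fact p.Prime] (c : LM q) : ∃ c' : LM q, p • c' = c := by
  obtain ⟨z, hz⟩ := IsAlgClosed.exists_pow_nat_eq (el c) hp.out.pos
  have hz0 : z ≠ 0 := by
    rintro rfl
    rw [zero_pow hp.out.ne_zero] at hz
    exact el_ne_zero c hz.symm
  refine ⟨mkA z hz0, el_injective ?_⟩
  rw [el_nsmul, el_mkA, hz]

section zeta

variable {p : ℕ} [hp : Fact p.Prime] {ζ : Om q} (hζ : IsPrimitiveRoot ζ p)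

include hζ in
theorem zeta_ne : ζ ≠ 0 := hζ.ne_zero hp.out.ne_zero

include hζ in
theorem p_mkA : p • (mkA ζ (zeta_ne hζ) : LM q) = 0 :=
  el_injective (by rw [el_nsmul, el_mkA, hζ.pow_eq_one, el_zero])

/-- roots of unity -/
def zq : ZMod p →+ LM q := mh (mkA ζ (zeta_ne hζ)) (p_mkA hζ)

theorem el_zq (t : ZMod p) : el (zq hζ t) = ζ ^ t.val := by
  rw [zq, mh_apply, el_nsmul, el_mkA]

theorem zq_inj : Function.Injective (zq hζ) := by
  intro t s h
  have h1 := congrArg el h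
  rw [el_zq, el_zq] at h1
  exact ZMod.val_injective p (hζ.pow_inj (ZMod.val_lt t) (ZMod.val_lt s) h1)

theorem zq_tors (c : LM q) (hc : p • c = 0) : ∃ t, zq hζ t = c := by
  have h1 := congrArg el hc
  rw [el_nsmul, el_zero] at h1
  obtain ⟨i, hi, hi'⟩ := hζ.eq_pow_of_pow_eq_one h1
  refine ⟨(i : ZMod p), el_injective ?_⟩
  rw [el_zq, ZMod.val_natCast, Nat.mod_eq_of_lt hi, hi']

end zeta

section U

variable {U : Subgroup (LG q)} (hU : IsOpen (U : Set (LG q)))

include hU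

theorem h90_U (c : U → LM q) (hc : c ∈ Z1 U (LM q)) (hlc : LC1 c) :
    ∃ a, ∀ g : U, c g = g • a - a := by
  obtain ⟨N₀, h1, h2, h3, h4⟩ := lev1 hU disc_LM hlc
  obtain ⟨N, hN1, hN2, hN3⟩ := exists_normal_le h1
  obtain ⟨c', hc'⟩ := desc1 N U (fun g n hn => h3 g n (hN3 hn)) (fun g n hn => h4 g n (hN3 hn))
  obtain ⟨a, ha⟩ := h1_zero N hN2 (PU N U) (desc_Z1 N U hc' hc)
  refine ⟨a, fun g => ?_⟩
  have h5 := congrArg (fun z : fix (LM q) N => (z : LM q)) (ha (piU N U g))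
  beta_reduce at h5
  rw [hc'] at h5
  exact h5

theorem norm_U (p : ℕ) [hp : Fact p.Prime] (χ : U → ZMod p) (hχ : ∀ g h, χ (g * h) = χ g + χ h)
    (hlc : LC1 χ) (hne : χ ≠ 0) :
    ∃ a : LM q, (∀ g : U, g • a = a) ∧ cup p (lft χ) a ∉ B2l U (LM q) := by
  -- an element with value one
  obtain ⟨s, hs⟩ : ∃ s, χ s = 1 := by
    obtain ⟨m, hm⟩ := Function.ne_iff.mp hne
    have hm' : χ m ≠ 0 := hm
    refine ⟨m ^ (χ m)⁻¹.val, ?_⟩
    rw [chi_pow χ hχ, ZMod.natCast_zmod_val]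
    exact inv_mul_cancel₀ hm'
  -- the kernel
  let W0 : Subgroup U :=
    { carrier := {g | χ g = 0}
      one_mem' := chi_one χ hχ
      mul_mem' := fun {a b} ha hb => by
        show χ (a * b) = 0
        rw [hχ, show χ a = 0 from ha, show χ b = 0 from hb, add_zero]
      inv_mem' := fun {a} ha => by
        show χ a⁻¹ = 0
        have h1 := hχ a a⁻¹
        rw [mul_inv_cancel, chi_one χ hχ, show χ a = 0 from ha, zero_add] at h1
        exact h1.symm }
  have hW0 : ∀ g, g ∈ W0 ↔ χ g = 0 := fun _ => Iff.rfl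
  let W : Subgroup (LG q) := W0.map U.subtype
  have hWmem : ∀ g : U, (g : LG q) ∈ W ↔ χ g = 0 := by
    intro g
    constructor
    · rintro ⟨y, hy, hyg⟩
      rw [← Subtype.ext hyg]; exact hy
    · intro h
      exact ⟨g, h, rfl⟩
  have hWU : W ≤ U := by
    rintro _ ⟨y, -, rfl⟩; exact y.2
  have hW0o : IsOpen (W0 : Set U) := by
    obtain ⟨N, h1, h2⟩ := hlc
    refine Subgroup.isOpen_mono ?_ h1
    intro n hn
    have := h2 1 n hn
    rw [one_mul, chi_one χ hχ] at this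
    exact this
  have hWo : IsOpen (W : Set (LG q)) := by
    have := hU.isOpenMap_subtype_val _ hW0o
    rwa [Subgroup.coe_map]
  have hnorm : ∀ g ∈ U, ∀ k ∈ W, g * k * g⁻¹ ∈ W := by
    rintro g hg _ ⟨k, hk, rfl⟩
    have h1 : ((⟨g, hg⟩ * k * (⟨g, hg⟩)⁻¹ : U) : LG q) ∈ W := by
      rw [hWmem, hχ, hχ, (hW0 k).mp hk, add_zero, ← hχ, mul_inv_cancel, chi_one χ hχ]
    exact h1
  have hidx : W.relIndex U = p := by
    have h1 : W.subgroupOf U = W0 := by
      ext g
      rw [Subgroup.mem_subgroupOf, hWmem]; exact Iff.rfl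
    rw [Subgroup.relIndex, h1]
    let F : U →* Multiplicative (ZMod p) :=
      { toFun := fun g => Multiplicative.ofAdd (χ g)
        map_one' := by rw [chi_one χ hχ]; rfl
        map_mul' := fun g h => by rw [hχ]; rfl }
    have hF : F.ker = W0 := by
      ext g
      rw [MonoidHom.mem_ker, hW0]
      exact ⟨fun h => Multiplicative.ofAdd.injective h, fun h => congrArg Multiplicative.ofAdd h⟩
    have hsurj : Function.Surjective F := by
      intro y
      refine ⟨s ^ (Multiplicative.toAdd y).val, ?_⟩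
      show Multiplicative.ofAdd (χ (s ^ (Multiplicative.toAdd y).val)) = y
      rw [chi_pow χ hχ, hs, mul_one, ZMod.natCast_zmod_val]; rfl
    rw [← hF, Subgroup.index_ker, MonoidHom.range_eq_top.mpr hsurj]
    rw [Nat.card_congr (Subgroup.topEquiv).toEquiv, Nat.card_congr Multiplicative.toAdd,
      Nat.card_zmod]
  have hsW : (s : LG q) ∉ W := by
    rw [hWmem, hs]; exact one_ne_zero
  obtain ⟨-, hri⟩ := L2_main hWo hWU hnorm hidx s.2 hsW
  obtain ⟨a, haU, haN⟩ : ∃ a ∈ fix (AA q) U, a ∉ (nrmGrp p (s : LG q) W : AddSubgroup (AA q)) := by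
    by_contra hcon
    push Not at hcon
    have : (nrmGrp p (s : LG q) W : AddSubgroup (AA q)).relIndex (fix (AA q) U) = 1 :=
      AddSubgroup.relIndex_eq_one.mpr hcon
    rw [this] at hri
    exact hp.out.one_lt.ne hri
  have haf : ∀ g : U, g • a = a := fun g => haU g g.2
  refine ⟨a, haf, fun hB => haN ?_⟩
  obtain ⟨b, hb1, hb2⟩ := hB
  obtain ⟨N₀, h1, h2, h3, h4⟩ := lev1 hU disc_LM hb1
  obtain ⟨N, hN1, hN2, hN3⟩ := exists_normal_le (open_inf h1 hWo)
  have hN0 : N ≤ N₀ := fun x hx => (hN3 hx).1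
  have hNW : N ≤ W := fun x hx => (hN3 hx).2
  obtain ⟨b', hb'⟩ := desc1 N U (fun g n hn => h3 g n (hN0 hn)) (fun g n hn => h4 g n (hN0 hn))
  -- the character on the quotient
  have hχN : ∀ g n : U, (n : LG q) ∈ N → χ (g * n) = χ g := fun g n hn => by
    rw [hχ, (hWmem n).mp (hNW hn), add_zero]
  choose σ hσ using piU_surj N U
  let χ' : PU N U → ZMod p := fun y => χ (σ y)
  have hχ' : ∀ g, χ' (piU N U g) = χ g := by
    intro g
    show χ (σ (piU N U g)) = χ g
    have h5 := piU_eq N U (hσ (piU N U g))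
    have h6 := hχN (σ (piU N U g)) ((σ (piU N U g))⁻¹ * g) h5
    rw [mul_inv_cancel_left] at h6
    exact h6.symm
  have hχ'a : ∀ y z, χ' (y * z) = χ' y + χ' z := by
    intro y z
    obtain ⟨y, rfl⟩ := piU_surj N U y
    obtain ⟨z, rfl⟩ := piU_surj N U z
    rw [← map_mul, hχ', hχ', hχ', hχ]
  let H : Subgroup (PU N U) := W0.map (piU N U)
  haveI : H.Normal := by
    haveI : W0.Normal := ⟨fun n hn g => by
      rw [hW0] at hn ⊢
      rw [hχ, hχ, hn, add_zero, ← hχ, mul_inv_cancel, chi_one χ hχ]⟩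
    exact Subgroup.Normal.map inferInstance (piU N U) (piU_surj N U)
  have hH : ∀ y, y ∈ H ↔ χ' y = 0 := by
    intro y
    obtain ⟨g, rfl⟩ := piU_surj N U y
    rw [hχ']
    constructor
    · rintro ⟨k, hk, hkg⟩
      rw [← hχ', ← hkg, hχ']; exact hk
    · intro h; exact ⟨g, h, rfl⟩
  let a' : fix (LM q) N := ⟨a, fun n hn => haU n (hWU (hNW hn))⟩
  have ha' : a' ∈ fix (fix (LM q) N) (⊤ : Subgroup (PU N U)) := by
    intro y _
    obtain ⟨g, rfl⟩ := piU_surj N U y
    exact Subtype.ext (haf g)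
  have hcup : cup p (lft χ') a' ∈ B2 (PU N U) (fix (LM q) N) := by
    refine ⟨b', desc_B2 N U hb' (c := cup p (lft χ) a) (fun g k => ?_) hb2⟩
    show (((lft χ' (piU N U g) + lft χ' (piU N U k) - lft χ' (piU N U g * piU N U k)) / (p : ℤ)) • a :
      LM q) = ((lft χ g + lft χ k - lft χ (g * k)) / (p : ℤ)) • a
    rw [← map_mul, lft, lft, lft, lft, lft, lft, hχ', hχ', hχ']
  obtain ⟨c, hc1, hc2⟩ := norm_of_cup_mem_B2 χ' hχ'a (s := piU N U s) (by rw [hχ', hs]) hH
    (Z1_sub (PU N U) H (h1_zero N hN2 _)) ha' hcup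
  refine ⟨(c : LM q), fun w hw => ?_, ?_⟩
  · obtain ⟨w, hw0, rfl⟩ := hw
    exact congrArg Subtype.val (hc1 (piU N U w) ⟨w, hw0, rfl⟩)
  · have h7 := congrArg Subtype.val hc2
    rw [AddSubgroup.val_finsetSum] at h7
    exact h7

theorem inv_U (p : ℕ) [hp : Fact p.Prime] :
    ∃ I : T2l U (LM q) p →+ ZMod p, ∀ x, I x = 0 ↔ x.1 ∈ B2l U (LM q) := by
  classical
  obtain ⟨I, hI⟩ := exists_embed (p := p)
    (V := T2l U (LM q) p ⧸ (B2l U (LM q)).addSubgroupOf (T2l U (LM q) p)) (by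
      intro v
      obtain ⟨x, rfl⟩ := QuotientAddGroup.mk_surjective v
      rw [← QuotientAddGroup.mk_nsmul, QuotientAddGroup.eq_zero_iff]
      exact x.2.2) (by
      intro v w hv
      obtain ⟨x, rfl⟩ := QuotientAddGroup.mk_surjective v
      obtain ⟨y, rfl⟩ := QuotientAddGroup.mk_surjective w
      have hx0 : x.1 ∉ B2l U (LM q) := fun h => hv ((QuotientAddGroup.eq_zero_iff _).mpr h)
      obtain ⟨x, ⟨⟨hx1, hx2⟩, bx, hbx1, hbx2⟩⟩ := x
      obtain ⟨y, ⟨⟨hy1, hy2⟩, bY, hbY1, hbY2⟩⟩ := y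
      obtain ⟨N1, a1, a2, a3, a4, a5⟩ := lev2 hU disc_LM hx2
      obtain ⟨N2, b1, b2, b3, b4, b5⟩ := lev2 hU disc_LM hy2
      obtain ⟨N3, c1, c2, c3, c4⟩ := lev1 hU disc_LM hbx1
      obtain ⟨N4, d1, d2, d3, d4⟩ := lev1 hU disc_LM hbY1
      obtain ⟨N, hN1, hN2, hN3⟩ := exists_normal_le (open_inf (open_inf a1 b1) (open_inf c1 d1))
      have e1 : N ≤ N1 := fun z hz => (hN3 hz).1.1
      have e2 : N ≤ N2 := fun z hz => (hN3 hz).1.2
      have e3 : N ≤ N3 := fun z hz => (hN3 hz).2.1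
      have e4 : N ≤ N4 := fun z hz => (hN3 hz).2.2
      obtain ⟨x', hx'⟩ := desc2 N U (fun g h n hn => a3 g h n (e1 hn))
        (fun g h n hn => a4 g h n (e1 hn)) (fun g h n hn => a5 g h n (e1 hn))
      obtain ⟨y', hy'⟩ := desc2 N U (fun g h n hn => b3 g h n (e2 hn))
        (fun g h n hn => b4 g h n (e2 hn)) (fun g h n hn => b5 g h n (e2 hn))
      obtain ⟨bx', hbx'⟩ := desc1 N U (fun g n hn => c3 g n (e3 hn)) (fun g n hn => c4 g n (e3 hn))
      obtain ⟨bY', hbY'⟩ := desc1 N U (fun g n hn => d3 g n (e4 hn)) (fun g n hn => d4 g n (e4 hn))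
      haveI := Subgroup.quotient_finite_of_isOpen N hN2
      obtain ⟨u, hu⟩ := L3 p N hN2
      obtain ⟨I', hI'⟩ := exists_inv (cfLayer_sub hu (PU N U))
      have hxT : x' ∈ T2p p (PU N U) (fix (LM q) N) := by
        refine ⟨desc_Z2 N U hx' hx1, bx', ?_⟩
        exact desc_B2 N U (c' := p • x') hbx' (c := p • x) (fun g k => by
          rw [Pi.smul_apply, Pi.smul_apply, AddSubgroup.coe_nsmul, hx']; rfl) hbx2
      have hyT : y' ∈ T2p p (PU N U) (fix (LM q) N) := by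
        refine ⟨desc_Z2 N U hy' hy1, bY', ?_⟩
        exact desc_B2 N U (c' := p • y') hbY' (c := p • y) (fun g k => by
          rw [Pi.smul_apply, Pi.smul_apply, AddSubgroup.coe_nsmul, hy']; rfl) hbY2
      have hx0' : I' ⟨x', hxT⟩ ≠ 0 := by
        intro h0
        exact hx0 (infl_B2l N U hN2 hx' ((hI' _).mp h0))
      set t := I' ⟨y', hyT⟩ * (I' ⟨x', hxT⟩)⁻¹ with ht
      have hk : I' (⟨y', hyT⟩ - t.val • ⟨x', hxT⟩) = 0 := by
        rw [map_sub, map_nsmul, nsmul_eq_mul, ZMod.natCast_zmod_val, ht, mul_assoc,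
          inv_mul_cancel₀ hx0', mul_one, sub_self]
      rw [hI'] at hk
      refine ⟨t.val, ?_⟩
      rw [natCast_zsmul, ← QuotientAddGroup.mk_nsmul, ← sub_eq_zero, ← QuotientAddGroup.mk_sub,
        QuotientAddGroup.eq_zero_iff, AddSubgroup.mem_addSubgroupOf]
      refine infl_B2l N U hN2 (c := y - t.val • x) (c' := y' - t.val • x') (fun g k => ?_) hk
      show ((y' (piU N U g) (piU N U k) - t.val • x' (piU N U g) (piU N U k) : fix (LM q) N) :
        LM q) = y g k - t.val • x g k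
      rw [AddSubgroup.coe_sub, AddSubgroup.coe_nsmul, hx', hy'])
  refine ⟨I.comp (QuotientAddGroup.mk' _), fun x => ?_⟩
  rw [AddMonoidHom.comp_apply, ← map_zero I, hI.eq_iff]
  exact QuotientAddGroup.eq_zero_iff _

end U

end

end Fermat.Agent.TWLocal
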