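import Fermat.Agent.CFT.InfRes

set_option autoImplicit false
set_option maxHeartbeats 400000
set_option linter.style.haveILetI false
set_option linter.unusedSectionVars false

/-! Locally constant cochains in low degrees. -/

namespace Fermat.Agent.TWLocal

open Fermat.Agent.CFT

section basic

variable {U : Type*} [Group U] [TopologicalSpace U] {X Y Z : Type*}

/-- locally constant functions -/
def LC1 (f : U → X) : Prop :=
  ∃ N : Subgroup U, IsOpen (N : Set U) ∧ ∀ g, ∀ n ∈ N, f (g * n) = f g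

/-- locally constant functions of two variables -/
def LC2 (f : U → U → X) : Prop :=
  ∃ N : Subgroup U, IsOpen (N : Set U) ∧ ∀ g h, ∀ n ∈ N, ∀ n' ∈ N, f (g * n) (h * n') = f g h

/-- discrete modules -/
def Disc (U : Type*) [Group U] [TopologicalSpace U] (A : Type*) [AddCommGroup A]
    [DistribMulAction U A] : Prop :=
  ∀ a : A, ∃ N : Subgroup U, IsOpen (N : Set U) ∧ ∀ n ∈ N, n • a = a

theorem open_inf {N N' : Subgroup U} (h : IsOpen (N : Set U)) (h' : IsOpen (N' : Set U)) :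
    IsOpen ((N ⊓ N' : Subgroup U) : Set U) := by
  rw [Subgroup.coe_inf]; exact h.inter h'

theorem LC1.comp {f : U → X} (hf : LC1 f) (F : X → Y) : LC1 (fun g => F (f g)) := by
  obtain ⟨N, h1, h2⟩ := hf
  exact ⟨N, h1, fun g n hn => congrArg F (h2 g n hn)⟩

theorem LC1.map₂ {f : U → X} {f' : U → Y} (hf : LC1 f) (hf' : LC1 f') (F : X → Y → Z) :
    LC1 (fun g => F (f g) (f' g)) := by
  obtain ⟨N, h1, h2⟩ := hf
  obtain ⟨N', h1', h2'⟩ := hf'
  exact ⟨N ⊓ N', open_inf h1 h1', fun g n hn => congrArg₂ F (h2 g n hn.1) (h2' g n hn.2)⟩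

theorem LC2.comp {f : U → U → X} (hf : LC2 f) (F : X → Y) : LC2 (fun g h => F (f g h)) := by
  obtain ⟨N, h1, h2⟩ := hf
  exact ⟨N, h1, fun g h n hn n' hn' => congrArg F (h2 g h n hn n' hn')⟩

theorem LC2.map₂ {f : U → U → X} {f' : U → U → Y} (hf : LC2 f) (hf' : LC2 f') (F : X → Y → Z) :
    LC2 (fun g h => F (f g h) (f' g h)) := by
  obtain ⟨N, h1, h2⟩ := hf
  obtain ⟨N', h1', h2'⟩ := hf'
  exact ⟨N ⊓ N', open_inf h1 h1', fun g h n hn n' hn' =>
    congrArg₂ F (h2 g h n hn.1 n' hn'.1) (h2' g h n hn.2 n' hn'.2)⟩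

theorem LC1.const (x : X) : LC1 (fun _ : U => x) := ⟨⊤, isOpen_univ, fun _ _ _ => rfl⟩
theorem LC2.const (x : X) : LC2 (fun _ _ : U => x) := ⟨⊤, isOpen_univ, fun _ _ _ _ _ _ => rfl⟩

theorem LC1.prod {f : U → X} {f' : U → Y} (hf : LC1 f) (hf' : LC1 f') (F : X → Y → Z) :
    LC2 (fun g h => F (f g) (f' h)) := by
  obtain ⟨N, h1, h2⟩ := hf
  obtain ⟨N', h1', h2'⟩ := hf'
  exact ⟨N ⊓ N', open_inf h1 h1', fun g h n hn n' hn' =>
    congrArg₂ F (h2 g n hn.1) (h2' h n' hn'.2)⟩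

end basic

section compact

variable {U : Type*} [Group U] [TopologicalSpace U] [IsTopologicalGroup U] [CompactSpace U]

theorem open_finiteIndex {N : Subgroup U} (h : IsOpen (N : Set U)) : N.FiniteIndex :=
  haveI := Subgroup.quotient_finite_of_isOpen N h
  Subgroup.finiteIndex_of_finite_quotient

theorem exists_normal_le {N : Subgroup U} (h : IsOpen (N : Set U)) :
    ∃ N' : Subgroup U, N'.Normal ∧ IsOpen (N' : Set U) ∧ N' ≤ N := by
  haveI := open_finiteIndex h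
  haveI : N.normalCore.FiniteIndex := inferInstance
  exact ⟨N.normalCore, inferInstance, Subgroup.isOpen_of_isClosed_of_finiteIndex _
    (N.normalCore_isClosed (N.isClosed_of_isOpen h)), N.normalCore_le⟩

theorem LC1.exists_level {A : Type*} [AddCommGroup A] [DistribMulAction U A] (hA : Disc U A)
    {b : U → A} (hb : LC1 b) : ∃ N : Subgroup U, N.Normal ∧ IsOpen (N : Set U) ∧
      (∀ g, ∀ n ∈ N, b (g * n) = b g) ∧ ∀ g, ∀ n ∈ N, n • b g = b g := by
  obtain ⟨N, h1, h2⟩ := hb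
  haveI := Subgroup.quotient_finite_of_isOpen N h1
  choose S hS1 hS2 using hA
  let T : Subgroup U := N ⊓ ⨅ x : U ⧸ N, S (b x.out)
  have hT : IsOpen (T : Set U) := by
    apply open_inf h1
    rw [Subgroup.coe_iInf]
    exact isOpen_iInter_of_finite fun x => hS1 _
  obtain ⟨N', h3, h4, h5⟩ := exists_normal_le hT
  refine ⟨N', h3, h4, fun g n hn => h2 g n (h5 hn).1, fun g n hn => ?_⟩
  have h6 : b (QuotientGroup.mk g : U ⧸ N).out = b g := by
    obtain ⟨n, hn⟩ := QuotientGroup.mk_out_eq_mul N g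
    rw [hn, h2 g n n.2]
  rw [← h6]
  have h7 : n ∈ ⨅ x : U ⧸ N, S (b x.out) := (h5 hn).2
  rw [Subgroup.mem_iInf] at h7
  exact hS2 _ n (h7 _)

theorem LC2.exists_level {A : Type*} [AddCommGroup A] [DistribMulAction U A] (hA : Disc U A)
    {x : U → U → A} (hx : LC2 x) : ∃ N : Subgroup U, N.Normal ∧ IsOpen (N : Set U) ∧
      IsLevel2 N x := by
  obtain ⟨N, h1, h2⟩ := hx
  haveI := Subgroup.quotient_finite_of_isOpen N h1
  choose S hS1 hS2 using hA
  let T : Subgroup U := N ⊓ ⨅ z : (U ⧸ N) × (U ⧸ N), S (x z.1.out z.2.out)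
  have hT : IsOpen (T : Set U) := by
    apply open_inf h1
    rw [Subgroup.coe_iInf]
    exact isOpen_iInter_of_finite fun x => hS1 _
  obtain ⟨N', h3, h4, h5⟩ := exists_normal_le hT
  refine ⟨N', h3, h4, fun g h n hn => ?_, fun g h n hn => ?_, fun g h n hn => ?_⟩
  · have := h2 g h n (h5 hn).1 1 N.one_mem
    rwa [mul_one] at this
  · have := h2 g h 1 N.one_mem n (h5 hn).1
    rwa [mul_one] at this
  have h6 : x (QuotientGroup.mk g : U ⧸ N).out (QuotientGroup.mk h : U ⧸ N).out = x g h := by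
    obtain ⟨n, hn⟩ := QuotientGroup.mk_out_eq_mul N g
    obtain ⟨n', hn'⟩ := QuotientGroup.mk_out_eq_mul N h
    rw [hn, hn', h2 g h n n.2 n' n'.2]
  rw [← h6]
  have h7 : n ∈ ⨅ z : (U ⧸ N) × (U ⧸ N), S (x z.1.out z.2.out) := (h5 hn).2
  rw [Subgroup.mem_iInf] at h7
  exact hS2 _ n (h7 (QuotientGroup.mk g, QuotientGroup.mk h))

theorem LC2.of_level {A : Type*} [AddCommGroup A] [DistribMulAction U A]
    {x : U → U → A} {N : Subgroup U} (hN : IsOpen (N : Set U)) (h : IsLevel2 N x) : LC2 x :=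
  ⟨N, hN, fun g h' n hn n' hn' => by rw [h.2.1 _ _ n' hn', h.1 _ _ n hn]⟩

theorem LC1.dd {A : Type*} [AddCommGroup A] [DistribMulAction U A] (hA : Disc U A)
    {b : U → A} (hb : LC1 b) : LC2 (dd b) := by
  obtain ⟨N, h1, h2, h3, h4⟩ := hb.exists_level hA
  refine ⟨N, h2, fun g h n hn n' hn' => ?_⟩
  show b (g * n) + (g * n) • b (h * n') - b (g * n * (h * n')) = b g + g • b h - b (g * h)
  have e1 : g * n * (h * n') = (g * h) * ((h⁻¹ * n * h) * n') := by group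
  rw [h3 g n hn, h3 h n' hn', mul_smul, h4 h n hn, e1,
    h3 _ _ (N.mul_mem (by simpa using h1.conj_mem n hn h⁻¹) hn')]

end compact

section groups

variable (U : Type*) [Group U] [TopologicalSpace U] (A : Type*) [AddCommGroup A]
  [DistribMulAction U A]

/-- locally constant 2-cocycles -/
def Z2l : AddSubgroup (U → U → A) where
  carrier := {x | x ∈ Z2 U A ∧ LC2 x}
  zero_mem' := ⟨(Z2 U A).zero_mem, LC2.const 0⟩
  add_mem' := fun ha hb => ⟨(Z2 U A).add_mem ha.1 hb.1, ha.2.map₂ hb.2 (· + ·)⟩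
  neg_mem' := fun ha => ⟨(Z2 U A).neg_mem ha.1, ha.2.comp (- ·)⟩

/-- coboundaries of locally constant 1-cochains -/
def B2l : AddSubgroup (U → U → A) where
  carrier := {x | ∃ b : U → A, LC1 b ∧ ∀ g h, x g h = b g + g • b h - b (g * h)}
  zero_mem' := ⟨0, LC1.const 0, by intro g h; simp⟩
  add_mem' := by
    rintro a b ⟨x, hx, hx'⟩ ⟨y, hy, hy'⟩
    exact ⟨x + y, hx.map₂ hy (· + ·), fun g h => by
      simp only [Pi.add_apply, hx', hy', smul_add]; abel⟩
  neg_mem' := by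
    rintro a ⟨x, hx, hx'⟩
    exact ⟨-x, hx.comp (- ·), fun g h => by simp only [Pi.neg_apply, hx', smul_neg]; abel⟩

/-- locally constant 1-cocycles -/
def Z1l : AddSubgroup (U → A) where
  carrier := {x | x ∈ Z1 U A ∧ LC1 x}
  zero_mem' := ⟨(Z1 U A).zero_mem, LC1.const 0⟩
  add_mem' := fun ha hb => ⟨(Z1 U A).add_mem ha.1 hb.1, ha.2.map₂ hb.2 (· + ·)⟩
  neg_mem' := fun ha => ⟨(Z1 U A).neg_mem ha.1, ha.2.comp (- ·)⟩

/-- locally constant cocycles whose class is killed by `p` -/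
def T2l (p : ℕ) : AddSubgroup (U → U → A) where
  carrier := {x | x ∈ Z2l U A ∧ p • x ∈ B2l U A}
  zero_mem' := ⟨(Z2l U A).zero_mem, by rw [smul_zero]; exact (B2l U A).zero_mem⟩
  add_mem' := fun ha hb => ⟨(Z2l U A).add_mem ha.1 hb.1, by
    rw [smul_add]; exact (B2l U A).add_mem ha.2 hb.2⟩
  neg_mem' := fun ha => ⟨(Z2l U A).neg_mem ha.1, by
    rw [smul_neg]; exact (B2l U A).neg_mem ha.2⟩

variable {U A}

theorem mem_B2l {x : U → U → A} : x ∈ B2l U A ↔
    ∃ b : U → A, LC1 b ∧ ∀ g h, x g h = b g + g • b h - b (g * h) := Iff.rfl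

theorem dd_mem_B2l {b : U → A} (hb : LC1 b) : dd b ∈ B2l U A := ⟨b, hb, fun _ _ => rfl⟩

theorem B2l_le_B2 : B2l U A ≤ B2 U A := fun _ ⟨b, _, h⟩ => ⟨b, h⟩

theorem map_Z2l {B : Type*} [AddCommGroup B] [DistribMulAction U B] {x : U → U → A}
    (hx : x ∈ Z2l U A) (φ : A →+ B) (hφ : ∀ (g : U) (a : A), φ (g • a) = g • φ a) :
    (fun g h => φ (x g h)) ∈ Z2l U B :=
  ⟨fun g h k => by rw [← hφ, ← map_add, ← map_add, hx.1 g h k], hx.2.comp φ⟩

theorem map_B2l {B : Type*} [AddCommGroup B] [DistribMulAction U B] {x : U → U → A}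
    (hx : x ∈ B2l U A) (φ : A →+ B) (hφ : ∀ (g : U) (a : A), φ (g • a) = g • φ a) :
    (fun g h => φ (x g h)) ∈ B2l U B := by
  obtain ⟨b, h1, h2⟩ := hx
  exact ⟨fun g => φ (b g), h1.comp φ, fun g h => by
    show φ (x g h) = φ (b g) + g • φ (b h) - φ (b (g * h))
    rw [h2, map_sub, map_add, hφ]⟩

theorem B2l_le_Z2l [IsTopologicalGroup U] [CompactSpace U] (hA : Disc U A) :
    B2l U A ≤ Z2l U A := by
  rintro x ⟨b, h1, h2⟩
  have h3 : x = dd b := by funext g h; exact h2 g h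
  rw [h3]
  exact ⟨B2_le_Z2 (dd_mem_B2 b), h1.dd hA⟩

end groups

end Fermat.Agent.TWLocal
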