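import Fermat.Agent.TWLocal.Ec
import Fermat.Agent.TWLocal.Inst2
import Fermat.Agent.EqDir.Main

set_option autoImplicit false
set_option maxHeartbeats 400000
set_option linter.style.haveILetI false
set_option linter.unusedSectionVars false

/-! Units of local fields as Galois modules. -/

namespace Fermat.Agent.TWLocal

open Fermat.Agent.CFT Fermat.Agent.CFTLocal Fermat.Agent.EqDir

noncomputable section

variable {q : ℕ} [hq : Fact q.Prime] (N : Subgroup (LG q)) [hNn : N.Normal]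

/-- small elements of the fixed field -/
def Bo (ρ : ℝ) (hρ : 0 < ρ) : AddSubgroup (fix (Om q) N) where
  carrier := {x | ‖(x : Om q)‖ < ρ}
  zero_mem' := by
    show ‖((0 : fix (Om q) N) : Om q)‖ < ρ
    rw [AddSubgroup.coe_zero, norm_zero]; exact hρ
  add_mem' := by
    intro x y hx hy
    show ‖((x + y : fix (Om q) N) : Om q)‖ < ρ
    rw [AddSubgroup.coe_add]
    exact (norm_add_le_max' _ _).trans_lt (max_lt hx hy)
  neg_mem' := by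
    intro x hx
    show ‖((-x : fix (Om q) N) : Om q)‖ < ρ
    rw [AddSubgroup.coe_neg, norm_neg]; exact hx

variable {N}

theorem mem_Bo {ρ : ℝ} {hρ : 0 < ρ} {x : fix (Om q) N} : x ∈ Bo N ρ hρ ↔ ‖(x : Om q)‖ < ρ :=
  Iff.rfl

theorem mem_fixOm {x : Om q} : x ∈ fix (Om q) N ↔ x ∈ EE N := by
  rw [mem_EE, mem_fix]; rfl

instance stab_Bo (ρ : ℝ) (hρ : 0 < ρ) : Stab (LG q ⧸ N) (Bo N ρ hρ) where
  smul_mem := by
    intro g x hx
    induction g using QuotientGroup.induction_on with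
    | H g =>
      show ‖g (x : Om q)‖ < ρ
      rw [norm_gal]; exact hx

instance stab_VV (ρ : ℝ) (hρ : 0 < ρ ∧ ρ ≤ 1) : Stab (LG q ⧸ N) (VV N ρ hρ) where
  smul_mem := by
    intro g x hx
    induction g using QuotientGroup.induction_on with
    | H g =>
      show ‖g (eF x) - 1‖ < ρ
      have : g (eF x) - 1 = g (eF x - 1) := by rw [map_sub, map_one]
      rw [this, norm_gal]; exact hx

variable (N) (p : ℕ) [hp : Fact p.Prime] (ρ : ℝ) (hρ : 0 < ρ)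

/-- the quotient of a ball by `p` times the ball -/
def WB : Type := Bo N ρ hρ ⧸ (Bo N (ρ * ‖(p : Om q)‖) (mul_pos hρ norm_p_pos)).addSubgroupOf (Bo N ρ hρ)

instance : AddCommGroup (WB N p ρ hρ) := inferInstanceAs (AddCommGroup
  (Bo N ρ hρ ⧸ (Bo N (ρ * ‖(p : Om q)‖) (mul_pos hρ norm_p_pos)).addSubgroupOf (Bo N ρ hρ)))

instance : DistribMulAction (LG q ⧸ N) (WB N p ρ hρ) :=
  quotDMA ((Bo N (ρ * ‖(p : Om q)‖) (mul_pos hρ norm_p_pos)).addSubgroupOf (Bo N ρ hρ))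
    (fun g a ha => by
      rw [AddSubgroup.mem_addSubgroupOf] at ha ⊢
      exact (stab_Bo _ _).smul_mem g _ ha)

/-- projection -/
def piB : Bo N ρ hρ →+ WB N p ρ hρ := QuotientAddGroup.mk' _

theorem piB_surj : Function.Surjective (piB N p ρ hρ) := QuotientAddGroup.mk'_surjective _

theorem piB_smul (g : LG q ⧸ N) (x : Bo N ρ hρ) : piB N p ρ hρ (g • x) = g • piB N p ρ hρ x := rfl

theorem piB_eq_zero (x : Bo N ρ hρ) : piB N p ρ hρ x = 0 ↔ ‖((x : fix (Om q) N) : Om q)‖ < ρ * ‖(p : Om q)‖ := by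
  rw [piB]
  exact (QuotientAddGroup.eq_zero_iff x).trans Iff.rfl

theorem piB_ker (x : Bo N ρ hρ) : piB N p ρ hρ x = 0 ↔ ∃ y, x = p • y := by
  have hp0 : (p : Om q) ≠ 0 := Nat.cast_ne_zero.mpr hp.out.ne_zero
  rw [piB_eq_zero]
  constructor
  · intro h
    have h1 : ((x : fix (Om q) N) : Om q) / p ∈ fix (Om q) N := by
      rw [mem_fixOm]
      exact div_mem (mem_fixOm.mp x.1.2) (natCast_mem_EE N p)
    have h2 : ‖((x : fix (Om q) N) : Om q) / p‖ < ρ := by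
      rw [norm_div, div_lt_iff₀ norm_p_pos]; exact h
    refine ⟨⟨⟨_, h1⟩, h2⟩, Subtype.ext (Subtype.ext ?_)⟩
    show _ = p • (((x : fix (Om q) N) : Om q) / p)
    rw [nsmul_eq_mul, mul_div_cancel₀ _ hp0]
  · rintro ⟨y, rfl⟩
    have h1 : ((((p • y : Bo N ρ hρ)) : fix (Om q) N) : Om q) = p * ((y : fix (Om q) N) : Om q) := by
      rw [← nsmul_eq_mul]; rfl
    rw [h1, norm_mul, mul_comm]
    exact mul_lt_mul_of_pos_right y.2 norm_p_pos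

variable {N}

theorem finite_WB (hN : IsOpen (N : Set (LG q))) : Finite (WB N p ρ hρ) := by
  haveI := finiteDimensional_EE hN
  have h1 : (BB N (ρ * ‖(p : Om q)‖) (mul_pos hρ norm_p_pos)).relIndex (BB N ρ hρ) ≠ 0 :=
    relIndex_ne_zero (EE N) q _ _ (BB_in N _ _) (BB_in N ρ hρ) (BB_out N ρ hρ)
  haveI : ((BB N (ρ * ‖(p : Om q)‖) (mul_pos hρ norm_p_pos)).addSubgroupOf (BB N ρ hρ)).FiniteIndex :=
    ⟨h1⟩
  haveI : Finite (BB N ρ hρ ⧸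
      (BB N (ρ * ‖(p : Om q)‖) (mul_pos hρ norm_p_pos)).addSubgroupOf (BB N ρ hρ)) :=
    AddSubgroup.finite_quotient_of_finiteIndex
  let f : BB N ρ hρ → WB N p ρ hρ := fun x =>
    piB N p ρ hρ ⟨⟨((x : EE N) : Om q), mem_fixOm.mpr (x : EE N).2⟩, x.2⟩
  have hf : Function.Surjective f := by
    intro w
    obtain ⟨x, rfl⟩ := piB_surj N p ρ hρ w
    exact ⟨⟨⟨((x : fix (Om q) N) : Om q), mem_fixOm.mp x.1.2⟩, x.2⟩, rfl⟩
  refine Finite.of_surjective (fun y : BB N ρ hρ ⧸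
      (BB N (ρ * ‖(p : Om q)‖) (mul_pos hρ norm_p_pos)).addSubgroupOf (BB N ρ hρ) => f y.out) ?_
  intro w
  obtain ⟨x, rfl⟩ := hf w
  refine ⟨QuotientAddGroup.mk x, ?_⟩
  have h2 : (QuotientAddGroup.mk (QuotientAddGroup.mk x : BB N ρ hρ ⧸
      (BB N (ρ * ‖(p : Om q)‖) (mul_pos hρ norm_p_pos)).addSubgroupOf (BB N ρ hρ)).out :
      BB N ρ hρ ⧸ (BB N (ρ * ‖(p : Om q)‖) (mul_pos hρ norm_p_pos)).addSubgroupOf (BB N ρ hρ)) =
      QuotientAddGroup.mk x := Quotient.out_eq _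
  obtain ⟨y, hy⟩ : ∃ y, y = (QuotientAddGroup.mk x : BB N ρ hρ ⧸
      (BB N (ρ * ‖(p : Om q)‖) (mul_pos hρ norm_p_pos)).addSubgroupOf (BB N ρ hρ)).out := ⟨_, rfl⟩
  rw [← hy] at h2
  show f (QuotientAddGroup.mk x : BB N ρ hρ ⧸
      (BB N (ρ * ‖(p : Om q)‖) (mul_pos hρ norm_p_pos)).addSubgroupOf (BB N ρ hρ)).out = f x
  rw [← hy]
  rw [QuotientAddGroup.eq, AddSubgroup.mem_addSubgroupOf] at h2
  have h3 : ‖-(((y : EE N)) : Om q) + ((x : EE N) : Om q)‖ < ρ * ‖(p : Om q)‖ := h2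
  show piB N p ρ hρ _ = piB N p ρ hρ _
  rw [eq_comm, ← sub_eq_zero, ← map_sub, piB_eq_zero]
  show ‖((x : EE N) : Om q) - ((y : EE N) : Om q)‖ < _
  rw [sub_eq_neg_add]; exact h3

variable (N) in
/-- the truncated logarithm `a ↦ a - 1` -/
def piV (hρ1 : ρ ≤ 1) (hρp : ρ ≤ ‖(p : Om q)‖) : VV N ρ ⟨hρ, hρ1⟩ →+ WB N p ρ hρ :=
  AddMonoidHom.mk' (fun a => piB N p ρ hρ ⟨⟨eF (a : fix (AA q) N) - 1,
    mem_fixOm.mpr (sub_mem (eF_mem _) (one_mem _))⟩, a.2⟩) (fun a b => by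
    rw [← map_add, ← sub_eq_zero, ← map_sub, piB_eq_zero]
    show ‖(eF ((a + b : VV N ρ ⟨hρ, hρ1⟩) : fix (AA q) N) - 1) -
      ((eF (a : fix (AA q) N) - 1) + (eF (b : fix (AA q) N) - 1))‖ < ρ * ‖(p : Om q)‖
    have h1 : eF ((a + b : VV N ρ ⟨hρ, hρ1⟩) : fix (AA q) N) =
      eF (a : fix (AA q) N) * eF (b : fix (AA q) N) := eF_add _ _
    have h2 : (eF ((a + b : VV N ρ ⟨hρ, hρ1⟩) : fix (AA q) N) - 1) -
      ((eF (a : fix (AA q) N) - 1) + (eF (b : fix (AA q) N) - 1)) =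
      (eF (a : fix (AA q) N) - 1) * (eF (b : fix (AA q) N) - 1) := by rw [h1]; ring
    rw [h2, norm_mul]
    have h3 : ‖eF (a : fix (AA q) N) - 1‖ < ρ := a.2
    have h4 : ‖eF (b : fix (AA q) N) - 1‖ < ρ := b.2
    calc _ ≤ ‖eF (a : fix (AA q) N) - 1‖ * ρ := mul_le_mul_of_nonneg_left h4.le (norm_nonneg _)
      _ ≤ ‖eF (a : fix (AA q) N) - 1‖ * ‖(p : Om q)‖ := mul_le_mul_of_nonneg_left hρp (norm_nonneg _)
      _ < _ := mul_lt_mul_of_pos_right h3 norm_p_pos)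

theorem piV_apply (hρ1 : ρ ≤ 1) (hρp : ρ ≤ ‖(p : Om q)‖) (a : VV N ρ ⟨hρ, hρ1⟩) :
    piV N p ρ hρ hρ1 hρp a = piB N p ρ hρ ⟨⟨eF (a : fix (AA q) N) - 1,
    mem_fixOm.mpr (sub_mem (eF_mem _) (one_mem _))⟩, a.2⟩ := rfl

theorem piV_smul (hρ1 : ρ ≤ 1) (hρp : ρ ≤ ‖(p : Om q)‖) (g : LG q ⧸ N) (a : VV N ρ ⟨hρ, hρ1⟩) :
    piV N p ρ hρ hρ1 hρp (g • a) = g • piV N p ρ hρ hρ1 hρp a := by
  rw [piV_apply, piV_apply, ← piB_smul]
  congr 1
  apply Subtype.ext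
  apply Subtype.ext
  induction g using QuotientGroup.induction_on with
  | H g =>
    show g (eF (a : fix (AA q) N)) - 1 = g (eF (a : fix (AA q) N) - 1)
    rw [map_sub, map_one]

theorem piV_surj (hρ1 : ρ ≤ 1) (hρp : ρ ≤ ‖(p : Om q)‖) :
    Function.Surjective (piV N p ρ hρ hρ1 hρp) := by
  intro w
  obtain ⟨x, rfl⟩ := piB_surj N p ρ hρ w
  have hx : ‖((x : fix (Om q) N) : Om q)‖ < ρ := x.2
  have h0 : (1 : Om q) + ((x : fix (Om q) N) : Om q) ≠ 0 := by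
    intro h
    have h1 : ((x : fix (Om q) N) : Om q) = -1 := by rw [eq_neg_iff_add_eq_zero, add_comm]; exact h
    rw [h1, norm_neg, norm_one] at hx
    exact absurd hx (not_lt.mpr hρ1)
  have hm : (1 : Om q) + ((x : fix (Om q) N) : Om q) ∈ EE N :=
    add_mem (one_mem _) (mem_fixOm.mp x.1.2)
  refine ⟨⟨ofF _ h0 hm, ?_⟩, ?_⟩
  · show ‖eF (ofF _ h0 hm : fix (AA q) N) - 1‖ < ρ
    rw [eF_ofF, add_sub_cancel_left]; exact hx
  · rw [piV_apply]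
    congr 1
    apply Subtype.ext
    apply Subtype.ext
    show eF (ofF _ h0 hm : fix (AA q) N) - 1 = _
    rw [eF_ofF, add_sub_cancel_left]

theorem piV_ker {ζ : Om q} (hζ : IsPrimitiveRoot ζ p) (hρ1 : ρ ≤ 1) (hρp : ρ ≤ ‖(p : Om q)‖)
    (hρζ : ρ ≤ ‖1 - ζ‖) (a : VV N ρ ⟨hρ, hρ1⟩) :
    piV N p ρ hρ hρ1 hρp a = 0 ↔ ∃ b, a = p • b := by
  have h1 := (mulN_VV (N := N) hζ ⟨hρ, hρ1⟩ hρζ).2
  rw [piV_apply, piB_eq_zero]
  constructor
  · intro h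
    have h2 : a ∈ (mulN (VV N ρ ⟨hρ, hρ1⟩) p).range := by
      rw [h1, AddSubgroup.mem_addSubgroupOf]; exact h
    obtain ⟨b, hb⟩ := h2
    exact ⟨b, hb.symm⟩
  · rintro ⟨b, rfl⟩
    have h2 : p • b ∈ (mulN (VV N ρ ⟨hρ, hρ1⟩) p).range := ⟨b, rfl⟩
    rw [h1, AddSubgroup.mem_addSubgroupOf] at h2
    exact h2

theorem VV_tors {ζ : Om q} (hζ : IsPrimitiveRoot ζ p) (hρ1 : ρ ≤ 1)
    (hρζ : ρ ≤ ‖1 - ζ‖) (a : VV N ρ ⟨hρ, hρ1⟩) (h : p • a = 0) : a = 0 := by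
  have h1 := (mulN_VV (N := N) hζ ⟨hρ, hρ1⟩ hρζ).1
  have h2 : a ∈ (mulN (VV N ρ ⟨hρ, hρ1⟩) p).ker := h
  rw [h1] at h2
  exact h2

end

end Fermat.Agent.TWLocal
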